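import Mathlib.RingTheory.DedekindDomain.IntegralClosure
import Fermat.Prelude.Def_AlgebraicCurve_DivisorClassGroup

/-!
# Places of a function field: basic facts on `ord`
-/

set_option autoImplicit false

namespace Fermat.Agent.Curve

open AlgebraicCurve IsDedekindDomain WithZero

variable {K F : Type*} [Field K] [Field F] [Algebra K F]

theorem exists_uniformizer (v : Place K F) : ∃ π : v.toValuationSubring, Irreducible π :=
  IsDiscreteValuationRing.exists_irreducible _

theorem coe_ne_zero_of_irreducible {v : Place K F} {π : v.toValuationSubring}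
    (hπ : Irreducible π) : (π : F) ≠ 0 := by
  simpa [ne_eq, ZeroMemClass.coe_eq_zero] using hπ.ne_zero

theorem ord_pow (v : Place K F) (f : F) (n : ℕ) : v.ord (f ^ n) = n * v.ord f := by
  have := v.ord_zpow f n
  simpa using this

theorem ord_div (v : Place K F) {f g : F} (hf : f ≠ 0) (hg : g ≠ 0) :
    v.ord (f / g) = v.ord f - v.ord g := by
  rw [div_eq_mul_inv, v.ord_mul hf (inv_ne_zero hg), v.ord_inv]
  ring

theorem ord_neg (v : Place K F) (f : F) : v.ord (-f) = v.ord f := by
  simp [Place.ord, Valuation.map_neg]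

theorem ord_nonneg_of_mem (v : Place K F) {f : F} (hf : f ∈ v.toValuationSubring) :
    0 ≤ v.ord f := by
  rcases eq_or_ne f 0 with rfl | hf0
  · simp
  · have h := v.heightOneSpectrum.valuation_le_one (K := F) ⟨f, hf⟩
    have h' : v.adicValuation f ≤ 1 := h
    unfold Place.ord
    rw [neg_nonneg]
    have := (WithZero.log_le_log (v.adicValuation_ne_zero hf0) one_ne_zero).2 h'
    simpa using this

theorem mem_of_ord_nonneg (v : Place K F) {f : F} (hf : 0 ≤ v.ord f) :
    f ∈ v.toValuationSubring := by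
  rcases eq_or_ne f 0 with rfl | hf0
  · exact zero_mem _
  · obtain ⟨π, hπ⟩ := exists_uniformizer v
    obtain ⟨u, hu⟩ := v.exists_unit_mul_zpow hf0 hπ
    obtain ⟨n, hn⟩ := Int.eq_ofNat_of_zero_le hf
    rw [hu, hn]
    simp only [zpow_natCast]
    exact mul_mem (u : v.toValuationSubring).2 (pow_mem π.2 n)

theorem mem_iff_ord_nonneg (v : Place K F) (f : F) :
    f ∈ v.toValuationSubring ↔ 0 ≤ v.ord f :=
  ⟨ord_nonneg_of_mem v, mem_of_ord_nonneg v⟩

theorem le_ord_add (v : Place K F) {f g : F} {n : ℤ} (hfg : f + g ≠ 0) (hf : n ≤ v.ord f)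
    (hg : n ≤ v.ord g) (hf0 : f ≠ 0) (hg0 : g ≠ 0) : n ≤ v.ord (f + g) := by
  have h := v.adicValuation.map_add f g
  unfold Place.ord at *
  rw [le_neg] at *
  rcases le_max_iff.1 h with h | h
  · exact le_trans ((WithZero.log_le_log (v.adicValuation_ne_zero hfg)
      (v.adicValuation_ne_zero hf0)).2 h) hf
  · exact le_trans ((WithZero.log_le_log (v.adicValuation_ne_zero hfg)
      (v.adicValuation_ne_zero hg0)).2 h) hg

theorem ord_algebraMap (v : Place K F) (a : K) : v.ord (algebraMap K F a) = 0 := by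
  rcases eq_or_ne a 0 with rfl | ha
  · simp
  · apply le_antisymm
    · have := ord_nonneg_of_mem v (v.algebraMap_mem' a⁻¹)
      rw [map_inv₀, v.ord_inv] at this
      omega
    · exact ord_nonneg_of_mem v (v.algebraMap_mem' a)

/-- ultrametric equality -/
theorem ord_add_eq_of_lt (v : Place K F) {f g : F} (hf0 : f ≠ 0) (hg0 : g ≠ 0)
    (h : v.ord f < v.ord g) : v.ord (f + g) = v.ord f := by
  have hfg : f + g ≠ 0 := by
    intro h0
    have : f = -g := eq_neg_of_add_eq_zero_left h0
    rw [this, ord_neg] at h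
    exact lt_irrefl _ h
  apply le_antisymm
  · by_contra hcon
    push Not at hcon
    have h1 : f = (f + g) + (-g) := by ring
    have h2 : v.ord f + 1 ≤ v.ord ((f + g) + (-g)) := by
      apply le_ord_add v
      · rwa [← h1]
      · omega
      · rw [ord_neg]; omega
      · exact hfg
      · exact neg_ne_zero.mpr hg0
    rw [← h1] at h2
    omega
  · exact le_ord_add v hfg le_rfl h.le hf0 hg0

theorem exists_ord_eq (v : Place K F) (n : ℤ) : ∃ f : F, f ≠ 0 ∧ v.ord f = n := by
  obtain ⟨π, hπ⟩ := exists_uniformizer v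
  refine ⟨(π : F) ^ n, zpow_ne_zero _ (coe_ne_zero_of_irreducible hπ), ?_⟩
  rw [v.ord_zpow, v.ord_coe_irreducible hπ, mul_one]

/-- The valuation ring of a place is a maximal proper subring. -/
theorem place_eq_of_le {v w : Place K F} (h : v.toValuationSubring ≤ w.toValuationSubring) :
    v = w := by
  ext1
  apply le_antisymm h
  intro x hx
  by_contra hxv
  have hx0 : x ≠ 0 := fun h0 => hxv (h0 ▸ zero_mem _)
  have hneg : v.ord x < 0 := by
    by_contra hcon
    exact hxv (mem_of_ord_nonneg v (not_lt.mp hcon))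
  apply w.ne_top'
  rw [eq_top_iff]
  intro y _
  rcases eq_or_ne y 0 with rfl | hy0
  · exact zero_mem _
  obtain ⟨n, hn⟩ : ∃ n : ℕ, 0 ≤ v.ord y - n * v.ord x := by
    refine ⟨(v.ord y).natAbs, ?_⟩
    have h1 : -(v.ord y) ≤ ((v.ord y).natAbs : ℤ) := by omega
    have h3 : (0:ℤ) ≤ ((v.ord y).natAbs : ℤ) := by omega
    nlinarith
  have hmem : y / x ^ n ∈ v.toValuationSubring := by
    apply mem_of_ord_nonneg
    rw [ord_div v hy0 (pow_ne_zero _ hx0), ord_pow]
    exact hn
  have : y = (y / x ^ n) * x ^ n := by field_simp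
  rw [this]
  exact mul_mem (h hmem) (pow_mem hx n)

theorem mem_nonunits_iff_ord_pos (v : Place K F) (x : v.toValuationSubring) :
    x ∈ IsLocalRing.maximalIdeal v.toValuationSubring ↔ (x : F) = 0 ∨ 0 < v.ord (x : F) := by
  rw [IsLocalRing.mem_maximalIdeal, mem_nonunits_iff, ← v.adicValuation_coe_eq_one_iff]
  rcases eq_or_ne (x : F) 0 with hx | hx
  · simp [hx]
  · simp only [hx, false_or]
    have h0 := ord_nonneg_of_mem v x.2
    unfold Place.ord at *
    constructor
    · intro h1
      refine lt_of_le_of_ne h0 ?_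
      intro h2
      apply h1
      have h3 : WithZero.log (v.adicValuation (x : F)) = 0 := by omega
      have h4 := WithZero.exp_log (v.adicValuation_ne_zero hx)
      rw [h3] at h4
      simpa using h4.symm
    · intro h1 h2
      rw [h2] at h1
      simp at h1

/-- An additive function on `F` which is nonnegative on the valuation ring is a multiple of
`ord`. -/
theorem exists_eq_mul_ord (v : Place K F) (w : F → ℤ)
    (hmul : ∀ f g : F, f ≠ 0 → g ≠ 0 → w (f * g) = w f + w g)
    (hnn : ∀ f : F, f ≠ 0 → 0 ≤ v.ord f → 0 ≤ w f) :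
    ∃ m : ℤ, 0 ≤ m ∧ ∀ f : F, f ≠ 0 → w f = m * v.ord f := by
  have h1 : w 1 = 0 := by
    have := hmul 1 1 one_ne_zero one_ne_zero
    rw [one_mul] at this
    omega
  have hinv : ∀ f : F, f ≠ 0 → w f⁻¹ = - w f := by
    intro f hf
    have := hmul f f⁻¹ hf (inv_ne_zero hf)
    rw [mul_inv_cancel₀ hf, h1] at this
    omega
  obtain ⟨π, hπ⟩ := exists_uniformizer v
  have hπ0 := coe_ne_zero_of_irreducible hπ
  have hpow : ∀ n : ℕ, w ((π : F) ^ n) = n * w π := by
    intro n
    induction n with
    | zero => simp [h1]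
    | succ n ih =>
      rw [pow_succ, hmul _ _ (pow_ne_zero _ hπ0) hπ0, ih]
      push_cast
      ring
  have hzpow : ∀ n : ℤ, w ((π : F) ^ n) = n * w π := by
    intro n
    obtain ⟨m, rfl | rfl⟩ := n.eq_nat_or_neg
    · rw [zpow_natCast, hpow]
    · rw [zpow_neg, zpow_natCast, hinv _ (pow_ne_zero _ hπ0), hpow]
      ring
  have hord0 : ∀ f : F, f ≠ 0 → v.ord f = 0 → w f = 0 := by
    intro f hf h0
    apply le_antisymm
    · have := hnn f⁻¹ (inv_ne_zero hf) (by rw [v.ord_inv, h0]; simp)
      rw [hinv f hf] at this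
      omega
    · exact hnn f hf h0.ge
  refine ⟨w π, hnn π hπ0 (by rw [v.ord_coe_irreducible hπ]; norm_num), ?_⟩
  intro f hf
  have h2 : w (f / (π : F) ^ (v.ord f)) = 0 := by
    apply hord0 _ (div_ne_zero hf (zpow_ne_zero _ hπ0))
    rw [ord_div v hf (zpow_ne_zero _ hπ0), v.ord_zpow, v.ord_coe_irreducible hπ]
    ring
  have h3 : f = (f / (π : F) ^ (v.ord f)) * (π : F) ^ (v.ord f) := by
    field_simp
  conv_lhs => rw [h3]
  rw [hmul _ _ (div_ne_zero hf (zpow_ne_zero _ hπ0)) (zpow_ne_zero _ hπ0), h2, hzpow, zero_add,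
    mul_comm]

/-- The place attached to a nontrivial discrete valuation `w : F → ℤ` trivial on `K`. -/
theorem exists_place_of_valuation (w : F → ℤ)
    (hmul : ∀ f g : F, f ≠ 0 → g ≠ 0 → w (f * g) = w f + w g)
    (hadd : ∀ f g : F, f ≠ 0 → g ≠ 0 → f + g ≠ 0 → min (w f) (w g) ≤ w (f + g))
    (hK : ∀ a : K, a ≠ 0 → w (algebraMap K F a) = 0)
    (hnt : ∃ f : F, f ≠ 0 ∧ w f ≠ 0) :
    ∃ v : Place K F, ∃ m : ℤ, 0 < m ∧ ∀ f : F, f ≠ 0 → w f = m * v.ord f := by
  have h1 : w 1 = 0 := by
    have := hmul 1 1 one_ne_zero one_ne_zero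
    rw [one_mul] at this
    omega
  have hinv : ∀ f : F, f ≠ 0 → w f⁻¹ = - w f := by
    intro f hf
    have := hmul f f⁻¹ hf (inv_ne_zero hf)
    rw [mul_inv_cancel₀ hf, h1] at this
    omega
  have hneg1 : w (-1) = 0 := by
    have := hK (-1) (by simp)
    simpa using this
  have hneg : ∀ f : F, w (-f) = w f := by
    intro f
    rcases eq_or_ne f 0 with rfl | hf
    · simp
    · have := hmul (-1) f (by simp) hf
      rw [hneg1, zero_add, neg_one_mul] at this
      exact this
  let A : ValuationSubring F :=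
    { carrier := {f | f ≠ 0 → 0 ≤ w f}
      mul_mem' := by
        intro a b ha hb hab
        have ha0 : a ≠ 0 := left_ne_zero_of_mul hab
        have hb0 : b ≠ 0 := right_ne_zero_of_mul hab
        rw [hmul a b ha0 hb0]
        exact add_nonneg (ha ha0) (hb hb0)
      one_mem' := fun _ => h1.ge
      add_mem' := by
        intro a b ha hb hab
        rcases eq_or_ne a 0 with rfl | ha0
        · rw [zero_add] at hab ⊢; exact hb hab
        rcases eq_or_ne b 0 with rfl | hb0
        · rw [add_zero] at hab ⊢; exact ha hab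
        exact le_trans (le_min (ha ha0) (hb hb0)) (hadd a b ha0 hb0 hab)
      zero_mem' := fun h => absurd rfl h
      neg_mem' := by
        intro a ha hna
        rw [hneg]
        exact ha (neg_ne_zero.mp hna)
      mem_or_inv_mem' := by
        intro a
        rcases le_total 0 (w a) with h | h
        · exact Or.inl fun _ => h
        · refine Or.inr fun h0 => ?_
          rw [hinv a (fun h => h0 (by rw [h, inv_zero]))]
          omega }
  have hA : ∀ f : F, f ∈ A ↔ (f ≠ 0 → 0 ≤ w f) := fun f => Iff.rfl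
  have hne_top : A ≠ ⊤ := by
    obtain ⟨f, hf0, hf⟩ := hnt
    intro htop
    have h1 : f ∈ A := htop ▸ ValuationSubring.mem_top f
    have h2 : f⁻¹ ∈ A := htop ▸ ValuationSubring.mem_top _
    have h3 := (hA f).1 h1 hf0
    have h4 := (hA _).1 h2 (inv_ne_zero hf0)
    rw [hinv f hf0] at h4
    omega
  have hPID : IsPrincipalIdealRing A := by
    constructor
    intro I
    by_cases hI : I = ⊥
    · rw [hI]; exact bot_isPrincipal
    · obtain ⟨x, hxI, hx0⟩ := Submodule.exists_mem_ne_zero_of_ne_bot hI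
      let P : ℕ → Prop := fun n => ∃ y ∈ I, (y : F) ≠ 0 ∧ w (y : F) = n
      have hP : ∃ n, P n := by
        have hx0' : (x : F) ≠ 0 := by simpa [ne_eq, ZeroMemClass.coe_eq_zero] using hx0
        exact ⟨(w (x : F)).toNat, x, hxI, hx0', (Int.toNat_of_nonneg ((hA _).1 x.2 hx0')).symm⟩
      classical
      obtain ⟨y, hyI, hy0, hyw⟩ := Nat.find_spec hP
      refine ⟨y, ?_⟩
      apply le_antisymm
      · intro z hz
        change z ∈ Ideal.span {y}
        rw [Ideal.mem_span_singleton]
        rcases eq_or_ne (z : F) 0 with hz0 | hz0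
        · have : z = 0 := by simpa [ZeroMemClass.coe_eq_zero] using hz0
          rw [this]; exact dvd_zero _
        have hzw : 0 ≤ w (z : F) := (hA _).1 z.2 hz0
        have hmin : (Nat.find hP : ℤ) ≤ w (z : F) := by
          have := Nat.find_min' hP (m := (w (z : F)).toNat)
            ⟨z, hz, hz0, (Int.toNat_of_nonneg hzw).symm⟩
          omega
        have hq : (z : F) / y ∈ A := by
          rw [hA]
          intro _
          rw [div_eq_mul_inv, hmul _ _ hz0 (inv_ne_zero hy0), hinv _ hy0, hyw]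
          omega
        refine ⟨⟨(z : F) / y, hq⟩, ?_⟩
        apply Subtype.ext
        change (z : F) = (y : F) * ((z : F) / y)
        field_simp
      · change Ideal.span {y} ≤ I
        rw [Ideal.span_le]
        simpa using hyI
  let v : Place K F :=
    { toValuationSubring := A
      algebraMap_mem' := by
        intro a
        rw [hA]
        intro ha
        rw [hK a (by rintro rfl; simp at ha)]
      ne_top' := hne_top
      isPrincipalIdealRing' := hPID }
  have hvA : ∀ f : F, f ≠ 0 → 0 ≤ v.ord f → 0 ≤ w f := by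
    intro f hf h
    have := mem_of_ord_nonneg v h
    exact (hA f).1 this hf
  obtain ⟨m, hm0, hm⟩ := exists_eq_mul_ord v w hmul hvA
  refine ⟨v, m, lt_of_le_of_ne hm0 ?_, hm⟩
  rintro rfl
  obtain ⟨f, hf0, hf⟩ := hnt
  apply hf
  rw [hm f hf0, zero_mul]

end Fermat.Agent.Curve
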