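import Mathlib.NumberTheory.RamificationInertia.Basic
import Mathlib.FieldTheory.RatFunc.AsPolynomial
import Mathlib.FieldTheory.IsAlgClosed.Basic
import Fermat.Agent.Curve.Basic

/-!
# Places over a point: `∑ e = n`
-/

set_option autoImplicit false
set_option linter.deprecated false
set_option linter.style.haveILetI false
set_option linter.unusedSectionVars false

namespace Fermat.Agent.Curve

open AlgebraicCurve IsDedekindDomain WithZero

section OfHeightOne

variable {K F : Type*} [Field K] [Field F] [Algebra K F]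
variable {B : Type*} [CommRing B] [IsDedekindDomain B] [Algebra B F] [IsFractionRing B F]
  [Algebra K B] [IsScalarTower K B F]

theorem ord_ofHeightOneSpectrum (w : HeightOneSpectrum B) {f : F} (hf : f ≠ 0) :
    (Place.ofHeightOneSpectrum (K := K) (F := F) w).ord f
      = -WithZero.log (w.valuation F f) := by
  set v := Place.ofHeightOneSpectrum (K := K) (F := F) w with hv
  have hne : ∀ g : F, g ≠ 0 → w.valuation F g ≠ 0 := fun g hg => (Valuation.ne_zero_iff _).2 hg
  obtain ⟨m, hm0, hm⟩ := exists_eq_mul_ord v (fun f => -WithZero.log (w.valuation F f))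
    (by
      intro f g hf hg
      simp only [map_mul]
      rw [WithZero.log_mul (hne f hf) (hne g hg)]
      ring)
    (by
      intro f hf h
      have h1 : f ∈ v.toValuationSubring := mem_of_ord_nonneg v h
      rw [hv, Place.ofHeightOneSpectrum_toValuationSubring, Valuation.mem_valuationSubring_iff] at h1
      have := (WithZero.log_le_log (hne f hf) one_ne_zero).2 h1
      simp at this
      simpa using this)
  obtain ⟨π, hπ⟩ := w.valuation_exists_uniformizer F
  have hπ0 : π ≠ 0 := by
    rintro rfl
    rw [map_zero] at hπ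
    exact WithZero.exp_ne_zero hπ.symm
  have h1 := hm π hπ0
  rw [hπ] at h1
  simp only [WithZero.log_exp, neg_neg] at h1
  have hm1 : m = 1 := by
    have : m ∣ 1 := ⟨_, h1⟩
    rcases Int.isUnit_iff.1 (isUnit_of_dvd_one this) with h | h
    · exact h
    · omega
  have := hm f hf
  rw [hm1, one_mul] at this
  exact this.symm

end OfHeightOne

section Fiber

variable {K F : Type*} [Field K] [IsAlgClosed K] [Field F] [Algebra K F]
variable (R L₀ : Type*) [CommRing R] [IsDedekindDomain R] [Field L₀] [Algebra R L₀]
  [IsFractionRing R L₀] [Algebra L₀ F] [Algebra R F] [IsScalarTower R L₀ F]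
  [FiniteDimensional L₀ F] [Algebra.IsSeparable L₀ F] [Algebra K R] [IsScalarTower K R F]

/-- The places over the prime generated by `ϖ`. -/
def fiberSet (K : Type*) {F : Type*} (R : Type*) [Field K] [Field F] [Algebra K F] [CommRing R]
    [Algebra R F] (ϖ : R) : Set (Place K F) :=
  {v | (∀ r : R, algebraMap R F r ∈ v.toValuationSubring) ∧ 0 < v.ord (algebraMap R F ϖ)}

include L₀ in
theorem fiber_sum (ϖ : R) (hϖ0 : ϖ ≠ 0) (hmax : (Ideal.span {ϖ}).IsMaximal)
    (hsurj : ∀ r : R, ∃ a : K, r - algebraMap K R a ∈ Ideal.span {ϖ}) :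
    ∃ hfin : (fiberSet K (F := F) R ϖ).Finite,
      ∑ v ∈ hfin.toFinset, v.ord (algebraMap R F ϖ) = Module.finrank L₀ F := by
  classical
  let B := integralClosure R F
  haveI : IsFractionRing B F := integralClosure.isFractionRing_of_finite_extension L₀ F
  haveI : IsDedekindDomain B := integralClosure.isDedekindDomain R L₀ F
  haveI : Module.Finite R B := IsIntegralClosure.finite R L₀ F B
  haveI : IsScalarTower K B F := by
    refine IsScalarTower.of_algebraMap_eq fun a => ?_
    rfl
  have hinjRF : Function.Injective (algebraMap R F) := by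
    rw [IsScalarTower.algebraMap_eq R L₀ F]
    exact (algebraMap L₀ F).injective.comp (IsFractionRing.injective R L₀)
  have hinjRB : Function.Injective (algebraMap R B) := by
    intro a b hab
    apply hinjRF
    rw [IsScalarTower.algebraMap_apply R B F, IsScalarTower.algebraMap_apply R B F, hab]
  set p : Ideal R := Ideal.span {ϖ} with hp
  have hp0 : p ≠ ⊥ := by
    rw [hp, ne_eq, Ideal.span_singleton_eq_bot]
    exact hϖ0
  have hϖF : algebraMap R F ϖ ≠ 0 := by
    rw [ne_eq, map_eq_zero_iff _ hinjRF]
    exact hϖ0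
  have hϖB : algebraMap R B ϖ ≠ 0 := by
    rw [ne_eq, map_eq_zero_iff _ hinjRB]
    exact hϖ0
  haveI : FaithfulSMul R B := (faithfulSMul_iff_algebraMap_injective R B).2 hinjRB
  have hmemP : ∀ P, P ∈ IsDedekindDomain.primesOverFinset p B ↔ P.IsPrime ∧ P.LiesOver p :=
    fun P => IsDedekindDomain.mem_primesOverFinset_iff hp0 B
  have hPne : ∀ P ∈ IsDedekindDomain.primesOverFinset p B, P ≠ ⊥ := by
    intro P hP
    obtain ⟨h1, h2⟩ := (hmemP P).1 hP
    exact Ideal.ne_bot_of_liesOver_of_ne_bot hp0 P
  -- the place attached to a prime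
  let pl : (P : Ideal B) → P ∈ IsDedekindDomain.primesOverFinset p B → Place K F := fun P hP =>
    Place.ofHeightOneSpectrum (K := K) (F := F)
      (⟨P, ((hmemP P).1 hP).1, hPne P hP⟩ : HeightOneSpectrum B)
  have hval : ∀ P hP (b : B), b ≠ 0 → (pl P hP).ord (algebraMap B F b) =
      -WithZero.log ((⟨P, ((hmemP P).1 hP).1, hPne P hP⟩ : HeightOneSpectrum B).intValuation b) := by
    intro P hP b hb
    have hb' : algebraMap B F b ≠ 0 := by
      rw [ne_eq, map_eq_zero_iff _ (IsFractionRing.injective B F)]
      exact hb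
    rw [ord_ofHeightOneSpectrum _ hb', HeightOneSpectrum.valuation_of_algebraMap]
  have hBmem : ∀ P hP (b : B), algebraMap B F b ∈ (pl P hP).toValuationSubring := by
    intro P hP b
    change algebraMap B F b ∈ (Place.ofHeightOneSpectrum (K := K) (F := F) _).toValuationSubring
    rw [Place.ofHeightOneSpectrum_toValuationSubring, Valuation.mem_valuationSubring_iff]
    exact HeightOneSpectrum.valuation_le_one _ _
  have hpos : ∀ P hP (b : B), b ≠ 0 → (0 < (pl P hP).ord (algebraMap B F b) ↔ b ∈ P) := by
    intro P hP b hb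
    rw [hval P hP b hb]
    have h1 := HeightOneSpectrum.intValuation_lt_one_iff_mem
      (⟨P, ((hmemP P).1 hP).1, hPne P hP⟩ : HeightOneSpectrum B) b
    rw [← h1, neg_pos, ← WithZero.log_one,
      WithZero.log_lt_log (HeightOneSpectrum.intValuation_ne_zero _ b hb) one_ne_zero]
  have hϖP : ∀ P ∈ IsDedekindDomain.primesOverFinset p B, algebraMap R B ϖ ∈ P := by
    intro P hP
    obtain ⟨h1, h2⟩ := (hmemP P).1 hP
    have : ϖ ∈ P.under R := by
      rw [← h2.over]
      exact Ideal.mem_span_singleton_self ϖ
    exact this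
  have hplmem : ∀ P hP, pl P hP ∈ fiberSet K (F := F) R ϖ := by
    intro P hP
    refine ⟨fun r => ?_, ?_⟩
    · rw [IsScalarTower.algebraMap_apply R B F]
      exact hBmem P hP _
    · rw [IsScalarTower.algebraMap_apply R B F, hpos P hP _ hϖB]
      exact hϖP P hP
  have hinj : ∀ P hP Q hQ, pl P hP = pl Q hQ → P = Q := by
    intro P hP Q hQ h
    ext b
    rcases eq_or_ne b 0 with rfl | hb
    · simp
    · rw [← hpos P hP b hb, ← hpos Q hQ b hb, h]
  have hsurj2 : ∀ v ∈ fiberSet K (F := F) R ϖ, ∃ P hP, pl P hP = v := by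
    rintro v ⟨hv1, hv2⟩
    -- `B` is contained in the valuation ring
    have hB : ∀ b : B, algebraMap B F b ∈ v.toValuationSubring := by
      intro b
      have hb : IsIntegral R (b : F) := b.2
      obtain ⟨q, hq, hq0⟩ := hb
      have h2 : IsIntegral v.toValuationSubring (b : F) := by
        let φ : R →+* v.toValuationSubring :=
          (algebraMap R F).codRestrict v.toValuationSubring.toSubring hv1
        refine ⟨q.map φ, hq.map φ, ?_⟩
        rw [Polynomial.eval₂_map]
        exact hq0
      obtain ⟨y, hy⟩ := IsIntegrallyClosed.isIntegral_iff.mp h2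
      change (b : F) ∈ _
      rw [← hy]
      exact y.2
    let ι : B →+* v.toValuationSubring :=
      (algebraMap B F).codRestrict v.toValuationSubring.toSubring hB
    let P : Ideal B := (IsLocalRing.maximalIdeal v.toValuationSubring).comap ι
    have hPprime : P.IsPrime := Ideal.comap_isPrime ι _
    have hPmem : ∀ b : B, b ≠ 0 → (b ∈ P ↔ 0 < v.ord (algebraMap B F b)) := by
      intro b hb
      have hb' : algebraMap B F b ≠ 0 := by
        rw [ne_eq, map_eq_zero_iff _ (IsFractionRing.injective B F)]
        exact hb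
      change ι b ∈ IsLocalRing.maximalIdeal v.toValuationSubring ↔ _
      rw [mem_nonunits_iff_ord_pos]
      have : ((ι b : v.toValuationSubring) : F) = algebraMap B F b := rfl
      rw [this]
      exact ⟨fun h => h.resolve_left hb', Or.inr⟩
    have hover : P.LiesOver p := by
      constructor
      have h1 : p ≤ P.under R := by
        rw [hp, Ideal.span_le, Set.singleton_subset_iff]
        change algebraMap R B ϖ ∈ P
        rw [hPmem _ hϖB, ← IsScalarTower.algebraMap_apply]
        exact hv2
      have h2 : P.under R ≠ ⊤ := by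
        haveI := hPprime
        exact (Ideal.IsPrime.under R P).ne_top
      exact hmax.eq_of_le h2 h1
    have hP : P ∈ IsDedekindDomain.primesOverFinset p B := (hmemP P).2 ⟨hPprime, hover⟩
    refine ⟨P, hP, ?_⟩
    apply place_eq_of_le
    intro x hx
    rcases eq_or_ne x 0 with rfl | hx0
    · exact zero_mem _
    change x ∈ (Place.ofHeightOneSpectrum (K := K) (F := F) _).toValuationSubring at hx
    rw [Place.ofHeightOneSpectrum_toValuationSubring, Valuation.mem_valuationSubring_iff] at hx
    obtain ⟨n, d, hnd⟩ := HeightOneSpectrum.exists_primeCompl_mul_eq_of_integer _ _ hx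
    have hd : (d : B) ∉ P := d.2
    have hd0 : (d : B) ≠ 0 := fun h => hd (h ▸ P.zero_mem)
    have hdF : algebraMap B F d ≠ 0 := by
      rw [ne_eq, map_eq_zero_iff _ (IsFractionRing.injective B F)]
      exact hd0
    have hordd : v.ord (algebraMap B F d) = 0 := by
      apply le_antisymm
      · by_contra hcon
        push Not at hcon
        exact hd ((hPmem _ hd0).2 hcon)
      · exact ord_nonneg_of_mem v (hB _)
    apply mem_of_ord_nonneg
    have h3 := v.ord_mul hx0 hdF
    rw [hordd, add_zero, hnd] at h3
    rw [← h3]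
    exact ord_nonneg_of_mem v (hB _)
  -- ramification
  have hram : ∀ P hP, ((Ideal.ramificationIdx' p P : ℕ) : ℤ) = (pl P hP).ord (algebraMap R F ϖ) := by
    intro P hP
    have h0 : 0 ≤ (pl P hP).ord (algebraMap R F ϖ) := (hplmem P hP).2.le
    obtain ⟨e, he⟩ := Int.eq_ofNat_of_zero_le h0
    rw [he]
    have key : ∀ n : ℕ, Ideal.map (algebraMap R B) p ≤ P ^ n ↔ n ≤ e := by
      intro n
      rw [hp, Ideal.map_span, Set.image_singleton, Ideal.span_le, Set.singleton_subset_iff]
      have h1 := HeightOneSpectrum.intValuation_le_pow_iff_mem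
        (⟨P, ((hmemP P).1 hP).1, hPne P hP⟩ : HeightOneSpectrum B) (algebraMap R B ϖ) n
      change algebraMap R B ϖ ∈ P ^ n ↔ _
      rw [← h1]
      have h2 := hval P hP _ hϖB
      rw [← IsScalarTower.algebraMap_apply, he] at h2
      have h3 : (⟨P, ((hmemP P).1 hP).1, hPne P hP⟩ : HeightOneSpectrum B).intValuation
          (algebraMap R B ϖ) = exp (-(e : ℤ)) := by
        rw [← WithZero.exp_log (HeightOneSpectrum.intValuation_ne_zero _ _ hϖB)]
        congr 1
        omega
      rw [h3, WithZero.exp_le_exp]
      omega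
    have := Ideal.ramificationIdx'_spec (p := p) (P := P) (n := e) ((key e).2 le_rfl)
      (by rw [key]; omega)
    rw [this]
  -- inertia
  have hinert : ∀ P ∈ IsDedekindDomain.primesOverFinset p B, Ideal.inertiaDeg' p P = 1 := by
    intro P hP
    obtain ⟨h1, h2⟩ := (hmemP P).1 hP
    haveI := h1
    haveI := h2
    haveI := hmax
    rw [Ideal.inertiaDeg'_algebraMap]
    letI : Field (R ⧸ p) := Ideal.Quotient.field p
    haveI : Module.Finite (R ⧸ p) (B ⧸ P) := inferInstance
    have hKR : Function.Surjective (algebraMap K (R ⧸ p)) := by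
      intro y
      obtain ⟨r, rfl⟩ := Ideal.Quotient.mk_surjective y
      obtain ⟨a, ha⟩ := hsurj r
      refine ⟨a, ?_⟩
      rw [IsScalarTower.algebraMap_apply K R (R ⧸ p)]
      symm
      exact (Ideal.Quotient.eq).2 ha
    have e1 : algebraMap K (B ⧸ P) = (algebraMap (R ⧸ p) (B ⧸ P)).comp (algebraMap K (R ⧸ p)) := by
      ext a
      have e2 : algebraMap K B a = algebraMap R B (algebraMap K R a) := by
        apply Subtype.ext
        change algebraMap K F a = algebraMap R F (algebraMap K R a)
        rw [← IsScalarTower.algebraMap_apply]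
      have e3 : algebraMap K (B ⧸ P) a = Ideal.Quotient.mk P (algebraMap K B a) := rfl
      rw [e3, e2]
      rfl
    have hint : (algebraMap K (B ⧸ P)).IsIntegral := by
      rw [e1]
      apply RingHom.IsIntegral.trans
      · exact RingHom.isIntegral_of_surjective _ hKR
      · exact (Algebra.IsIntegral.of_finite (R ⧸ p) (B ⧸ P)).isIntegral
    haveI : Algebra.IsIntegral K (B ⧸ P) := ⟨hint⟩
    have hsurj3 : Function.Surjective (algebraMap K (B ⧸ P)) :=
      (IsAlgClosed.algebraMap_bijective_of_isIntegral (k := K) (K := B ⧸ P)).2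
    have hbij : Function.Bijective (algebraMap (R ⧸ p) (B ⧸ P)) := by
      refine ⟨(algebraMap (R ⧸ p) (B ⧸ P)).injective, ?_⟩
      intro y
      obtain ⟨a, rfl⟩ := hsurj3 y
      exact ⟨algebraMap K (R ⧸ p) a, by rw [e1]; rfl⟩
    rw [← Module.finrank_self (R ⧸ p)]
    exact ((AlgEquiv.ofBijective (Algebra.ofId (R ⧸ p) (B ⧸ P)) hbij).toLinearEquiv.finrank_eq).symm
  haveI := hmax
  have hsum := Ideal.sum_ramification_inertia B L₀ F hp0
  -- the set is finite
  let Sf : Finset (Place K F) :=
    (IsDedekindDomain.primesOverFinset p B).attach.image fun P => pl P.1 P.2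
  have hSf : ∀ v, v ∈ Sf ↔ v ∈ fiberSet K (F := F) R ϖ := by
    intro v
    simp only [Sf, Finset.mem_image, Finset.mem_attach, true_and, Subtype.exists]
    constructor
    · rintro ⟨P, hP, rfl⟩
      exact hplmem P hP
    · intro hv
      exact hsurj2 v hv
  have hfin : (fiberSet K (F := F) R ϖ).Finite :=
    Set.Finite.ofFinset Sf hSf
  refine ⟨hfin, ?_⟩
  have hfe : hfin.toFinset = Sf := by
    ext v
    rw [Set.Finite.mem_toFinset, hSf]
  rw [hfe, Finset.sum_image, ← hsum]
  · push_cast
    rw [← Finset.sum_attach (IsDedekindDomain.primesOverFinset p B)]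
    apply Finset.sum_congr rfl
    intro P _
    rw [← hram P.1 P.2, hinert P.1 P.2]
    simp
  · intro P _ Q _ h
    exact Subtype.ext (hinj _ P.2 _ Q.2 h)

end Fiber

section Transcendental

open Polynomial IntermediateField

variable {K F : Type*} [Field K] [IsAlgClosed K] [CharZero K] [Field F] [Algebra K F]

/-- **Theorem A**: the number of zeros of `t`, counted with multiplicity, is `[F : K(t)]`. -/
theorem zeros_sum (t : F) (ht : Transcendental K t) [FiniteDimensional K⟮t⟯ F] :
    ∃ hfin : {v : Place K F | 0 < v.ord t}.Finite,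
      ∑ v ∈ hfin.toFinset, v.ord t = Module.finrank K⟮t⟯ F := by
  let g : K⟮t⟯ := AdjoinSimple.gen K t
  letI : Algebra K[X] K⟮t⟯ := (aeval g).toRingHom.toAlgebra
  letI : Algebra K[X] F := (aeval t).toRingHom.toAlgebra
  haveI : IsScalarTower K[X] K⟮t⟯ F := by
    refine IsScalarTower.of_algebraMap_eq fun p => ?_
    change aeval t p = algebraMap K⟮t⟯ F (aeval g p)
    rw [← aeval_algebraMap_apply]
    rfl
  haveI : IsScalarTower K K[X] F := by
    refine IsScalarTower.of_algebraMap_eq fun a => ?_
    change algebraMap K F a = aeval t (algebraMap K K[X] a)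
    simp
  haveI : IsFractionRing K[X] K⟮t⟯ := by
    let e : RatFunc K ≃ₐ[K[X]] K⟮t⟯ :=
      AlgEquiv.ofRingEquiv (f := (RatFunc.algEquivOfTranscendental t ht).toRingEquiv)
        (fun p => RatFunc.algEquivOfTranscendental_algebraMap t ht p)
    exact IsLocalization.isLocalization_of_algEquiv (nonZeroDivisors K[X]) e
  haveI : CharZero K⟮t⟯ := charZero_of_injective_algebraMap (algebraMap K K⟮t⟯).injective
  have hmax : (Ideal.span {(X : K[X])}).IsMaximal :=
    PrincipalIdealRing.isMaximal_of_irreducible irreducible_X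
  have hsurj : ∀ r : K[X], ∃ a : K, r - algebraMap K K[X] a ∈ Ideal.span {(X : K[X])} := by
    intro r
    refine ⟨r.coeff 0, ?_⟩
    rw [Ideal.mem_span_singleton, X_dvd_iff]
    simp
  obtain ⟨hfin, hsum⟩ := fiber_sum (K := K) (F := F) K[X] K⟮t⟯ X X_ne_zero hmax hsurj
  have hX : algebraMap K[X] F X = t := by
    change aeval t X = t
    simp
  have hset : fiberSet K (F := F) K[X] X = {v : Place K F | 0 < v.ord t} := by
    ext v
    simp only [fiberSet, Set.mem_ofPred_eq, hX]
    constructor
    · exact fun h => h.2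
    · intro h
      refine ⟨fun r => ?_, h⟩
      have htv : t ∈ v.toValuationSubring := mem_of_ord_nonneg v h.le
      change aeval t r ∈ v.toValuationSubring
      rw [aeval_eq_sum_range]
      refine sum_mem fun i _ => ?_
      rw [Algebra.smul_def]
      exact mul_mem (v.algebraMap_mem' _) (pow_mem htv i)
  have hfin' : {v : Place K F | 0 < v.ord t}.Finite := hset ▸ hfin
  refine ⟨hfin', ?_⟩
  rw [← hsum]
  refine Finset.sum_congr ?_ fun v _ => by rw [hX]
  ext v
  rw [Set.Finite.mem_toFinset, Set.Finite.mem_toFinset, hset]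

end Transcendental

end Fermat.Agent.Curve
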