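import Mathlib.Algebra.Polynomial.Bivariate
import Mathlib.RingTheory.Algebraic.Integral
import Fermat.Prelude.Def_AlgebraicCurve_IsCurveOver
import Fermat.Agent.Curve.Fiber

/-!
# Function fields of one variable: residue fields, degree of principal divisors
-/

set_option autoImplicit false
set_option linter.style.haveILetI false
set_option linter.unusedSectionVars false

namespace Fermat.Agent.Curve

open AlgebraicCurve Polynomial IntermediateField
open scoped Polynomial.Bivariate IntermediateField.algebraAdjoinAdjoin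

section Exchange

variable {K F : Type*} [Field K] [Field F] [Algebra K F]

theorem aevalAeval_eq_eval₂ (x y : F) (P : K[X][Y]) :
    aevalAeval x y P = eval₂ (aeval x : K[X] →ₐ[K] F).toRingHom y P := by
  induction P using Polynomial.induction_on' with
  | add p q hp hq => rw [map_add, eval₂_add, hp, hq]
  | monomial n a =>
    rw [eval₂_monomial, ← C_mul_X_pow_eq_monomial, map_mul, map_pow, aevalAeval_C, aevalAeval_Y]
    rfl

theorem isAlgebraic_exchange {f t : F} (hf : Transcendental K f) (h : IsAlgebraic K⟮t⟯ f) :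
    IsAlgebraic K⟮f⟯ t := by
  have h1 : IsAlgebraic (Algebra.adjoin K {t}) f :=
    (IsFractionRing.isAlgebraic_iff (Algebra.adjoin K {t}) K⟮t⟯ F).2 h
  obtain ⟨p, hp0, hp⟩ := h1
  let φ : K[X] →+* Algebra.adjoin K {t} :=
    ((aeval (⟨t, Algebra.self_mem_adjoin_singleton K t⟩ : Algebra.adjoin K {t})).toRingHom)
  have hφ : Function.Surjective φ := by
    rintro ⟨y, hy⟩
    have hy' := hy
    rw [Algebra.adjoin_singleton_eq_range_aeval] at hy'
    obtain ⟨q, hq⟩ := hy'
    refine ⟨q, ?_⟩
    apply Subtype.ext
    change ((Algebra.adjoin K {t}).val (aeval _ q) : F) = y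
    rw [← hq, ← aeval_algHom_apply]
    rfl
  obtain ⟨P, hP⟩ := Polynomial.map_surjective φ hφ p
  have hP0 : P ≠ 0 := by
    rintro rfl
    rw [Polynomial.map_zero] at hP
    exact hp0 hP.symm
  have hPe : aevalAeval t f P = 0 := by
    rw [← hP] at hp
    rw [← hp]
    rw [Polynomial.aeval_def, Polynomial.eval₂_map, aevalAeval_eq_eval₂]
    congr 1
    apply RingHom.ext
    intro a
    change aeval t a = ((Algebra.adjoin K {t}).val (aeval _ a) : F)
    rw [← aeval_algHom_apply]
    rfl
  have hQe : aevalAeval f t (Bivariate.swap P) = 0 := by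
    rw [Bivariate.aevalAeval_swap, hPe]
  have hQ0 : Bivariate.swap P ≠ 0 := by
    simpa using hP0
  let ψ : K[X] →+* K⟮f⟯ := (aeval (AdjoinSimple.gen K f)).toRingHom
  have hψ : Function.Injective ψ := by
    have h2 : Transcendental K (AdjoinSimple.gen K f) := by
      rw [← transcendental_algebraMap_iff (R := K) (S := K⟮f⟯) (A := F)
        (algebraMap K⟮f⟯ F).injective]
      exact hf
    exact transcendental_iff_injective.1 h2
  refine ⟨(Bivariate.swap P).map ψ, ?_, ?_⟩
  · rw [ne_eq, Polynomial.map_eq_zero_iff hψ]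
    exact hQ0
  · rw [← hQe, Polynomial.aeval_def, Polynomial.eval₂_map, aevalAeval_eq_eval₂]
    congr 1
    apply RingHom.ext
    intro a
    change algebraMap K⟮f⟯ F (aeval (AdjoinSimple.gen K f) a) = aeval f a
    rw [← aeval_algebraMap_apply]
    rfl

theorem finiteDimensional_of_transcendental {f t : F} [FiniteDimensional K⟮t⟯ F]
    (hf : Transcendental K f) : FiniteDimensional K⟮f⟯ F := by
  have h1 : IsAlgebraic K⟮f⟯ t :=
    isAlgebraic_exchange hf (Algebra.IsAlgebraic.isAlgebraic (R := K⟮t⟯) f)
  let E : IntermediateField K⟮f⟯ F := K⟮f⟯⟮t⟯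
  have hle : K⟮t⟯ ≤ E.restrictScalars K := by
    rw [adjoin_simple_le_iff]
    exact mem_adjoin_simple_self K⟮f⟯ t
  letI : Algebra K⟮t⟯ E := (IntermediateField.inclusion hle).toRingHom.toAlgebra
  haveI : IsScalarTower K⟮t⟯ E F := IsScalarTower.of_algebraMap_eq fun _ => rfl
  haveI : FiniteDimensional K⟮f⟯ E := adjoin.finiteDimensional h1.isIntegral
  haveI : Module.Finite E F := Module.Finite.of_restrictScalars_finite K⟮t⟯ E F
  exact Module.Finite.trans E F

end Exchange

section Residue

variable {K F : Type*} [Field K] [IsAlgClosed K] [Field F] [Algebra K F]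

theorem mem_range_of_isAlgebraic {f : F} (hf : IsAlgebraic K f) :
    ∃ a : K, algebraMap K F a = f := by
  obtain ⟨p, hp0, hp⟩ := hf
  have hs := IsAlgClosed.splits p
  have h2 : (p.map (algebraMap K F)).IsRoot f := by
    rw [Polynomial.IsRoot, Polynomial.eval_map, ← Polynomial.aeval_def, hp]
  have := IsAlgClosed.algebraMap_bijective_of_isIntegral (k := K) (K := algebraicClosure K F)
  obtain ⟨a, ha⟩ := this.2 ⟨f, by
    rw [mem_algebraicClosure_iff]
    exact ⟨p, hp0, hp⟩⟩
  exact ⟨a, congrArg Subtype.val ha⟩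

theorem transcendental_of_ord_ne_zero (v : Place K F) {f : F} (hf : v.ord f ≠ 0) :
    Transcendental K f := by
  intro h
  obtain ⟨a, rfl⟩ := mem_range_of_isAlgebraic h
  exact hf (ord_algebraMap v a)

variable (t : F) [FiniteDimensional K⟮t⟯ F]

include t in
/-- The residue field of a place is `K`. -/
theorem exists_const (v : Place K F) {f : F} (hf : f ∈ v.toValuationSubring) :
    ∃ a : K, f - algebraMap K F a = 0 ∨ 0 < v.ord (f - algebraMap K F a) := by
  by_cases halg : IsAlgebraic K f
  · obtain ⟨a, ha⟩ := mem_range_of_isAlgebraic halg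
    exact ⟨a, Or.inl (by rw [ha, sub_self])⟩
  have hf' : Transcendental K f := halg
  haveI := finiteDimensional_of_transcendental (t := t) hf'
  by_contra hcon
  push Not at hcon
  have hne : ∀ a : K, f - algebraMap K F a ≠ 0 := fun a => (hcon a).1
  have hord : ∀ a : K, v.ord (f - algebraMap K F a) = 0 := by
    intro a
    apply le_antisymm (hcon a).2
    exact ord_nonneg_of_mem v (sub_mem hf (v.algebraMap_mem' a))
  -- every polynomial in `f` is a unit
  have hpoly : ∀ p : K[X], p ≠ 0 → v.ord (aeval f p) = 0 := by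
    intro p hp
    have hs := (IsAlgClosed.splits p).eq_prod_roots
    rw [hs]
    rw [map_mul, aeval_C]
    have hprod : ∀ s : Multiset K, aeval f ((s.map fun a => X - C a).prod) ≠ 0 ∧
        v.ord (aeval f ((s.map fun a => X - C a).prod)) = 0 := by
      intro s
      induction s using Multiset.induction with
      | empty => simp
      | cons a s ih =>
        rw [Multiset.map_cons, Multiset.prod_cons, map_mul]
        have h1 : aeval f (X - C a : K[X]) = f - algebraMap K F a := by simp
        rw [h1]
        exact ⟨mul_ne_zero (hne a) ih.1, by rw [v.ord_mul (hne a) ih.1, hord a, ih.2]; rfl⟩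
    rw [v.ord_mul _ (hprod _).1, (hprod _).2, ord_algebraMap]
    · rfl
    · rw [ne_eq, map_eq_zero]
      exact leadingCoeff_ne_zero.2 hp
  have hKf : ∀ x : K⟮f⟯, (x : F) ∈ v.toValuationSubring := by
    intro x
    obtain ⟨y, z, hyz⟩ := (mem_adjoin_simple_iff K (x : F)).1 x.2
    rw [hyz]
    by_cases hz : z = 0
    · rw [hz]; simp [zero_mem]
    · by_cases hy : y = 0
      · rw [hy]; simp [zero_mem]
      · apply mem_of_ord_nonneg
        have hyf : aeval f y ≠ 0 := fun h => hy ((transcendental_iff.1 hf') y h)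
        have hzf : aeval f z ≠ 0 := fun h => hz ((transcendental_iff.1 hf') z h)
        rw [ord_div v hyf hzf, hpoly y hy, hpoly z hz]
        simp
  apply v.ne_top'
  rw [eq_top_iff]
  intro y _
  have hy : IsIntegral K⟮f⟯ y := Algebra.IsIntegral.isIntegral y
  obtain ⟨q, hq, hq0⟩ := hy
  have h2 : IsIntegral v.toValuationSubring y := by
    let φ : K⟮f⟯ →+* v.toValuationSubring :=
      (algebraMap K⟮f⟯ F).codRestrict v.toValuationSubring.toSubring hKf
    refine ⟨q.map φ, hq.map φ, ?_⟩
    rw [Polynomial.eval₂_map]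
    exact hq0
  obtain ⟨z, hz⟩ := IsIntegrallyClosed.isIntegral_iff.mp h2
  rw [← hz]
  exact z.2

include t in
theorem deg_eq_one (v : Place K F) : v.deg = 1 := by
  have hsurj : Function.Surjective (algebraMap K v.ResidueField) := by
    intro y
    obtain ⟨x, rfl⟩ := IsLocalRing.residue_surjective y
    obtain ⟨a, ha⟩ := exists_const t v x.2
    refine ⟨a, ?_⟩
    have h1 : algebraMap K v.ResidueField a
        = IsLocalRing.residue _ (algebraMap K v.toValuationSubring a) := rfl
    rw [h1]
    symm
    rw [← sub_eq_zero, ← map_sub, IsLocalRing.residue_eq_zero_iff, mem_nonunits_iff_ord_pos]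
    exact ha
  have hbij : Function.Bijective (algebraMap K v.ResidueField) :=
    ⟨(algebraMap K v.ResidueField).injective, hsurj⟩
  change Module.finrank K v.ResidueField = 1
  rw [← Module.finrank_self K]
  exact ((AlgEquiv.ofBijective (Algebra.ofId K v.ResidueField) hbij).toLinearEquiv.finrank_eq).symm

end Residue

section Principal

variable {K F : Type*} [Field K] [IsAlgClosed K] [CharZero K] [Field F] [Algebra K F]

theorem adjoin_simple_inv' (f : F) : K⟮f⁻¹⟯ = K⟮f⟯ := by
  apply le_antisymm
  · rw [adjoin_simple_le_iff]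
    exact inv_mem (mem_adjoin_simple_self K f)
  · rw [adjoin_simple_le_iff]
    have := inv_mem (mem_adjoin_simple_self K f⁻¹)
    rwa [inv_inv] at this

theorem poles_sum (f : F) (hf : Transcendental K f) [FiniteDimensional K⟮f⟯ F] :
    ∃ hfin : {v : Place K F | v.ord f < 0}.Finite,
      ∑ v ∈ hfin.toFinset, v.ord f = -(Module.finrank K⟮f⟯ F : ℤ) := by
  have hf' : Transcendental K f⁻¹ := fun h => hf (by simpa using h.inv)
  haveI : FiniteDimensional K⟮f⁻¹⟯ F := by rw [adjoin_simple_inv']; infer_instance
  obtain ⟨hfin, hsum⟩ := zeros_sum f⁻¹ hf'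
  have hset : {v : Place K F | 0 < v.ord f⁻¹} = {v : Place K F | v.ord f < 0} := by
    ext v
    simp only [Set.mem_ofPred_eq, v.ord_inv]
    constructor <;> intro h <;> omega
  have hfin' : {v : Place K F | v.ord f < 0}.Finite := hset ▸ hfin
  refine ⟨hfin', ?_⟩
  have h1 : Module.finrank K⟮f⁻¹⟯ F = Module.finrank K⟮f⟯ F := by rw [adjoin_simple_inv']
  rw [h1] at hsum
  rw [← hsum, ← Finset.sum_neg_distrib]
  refine Finset.sum_congr ?_ fun v _ => by rw [v.ord_inv, neg_neg]
  ext v
  rw [Set.Finite.mem_toFinset, Set.Finite.mem_toFinset, hset]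

/-- Principal divisors have finite support and degree `0`. -/
theorem ord_finite_sum_zero (t : F) [FiniteDimensional K⟮t⟯ F] (f : F) (hf : f ≠ 0) :
    ∃ hfin : {v : Place K F | v.ord f ≠ 0}.Finite,
      ∑ v ∈ hfin.toFinset, v.ord f = 0 := by
  classical
  by_cases halg : IsAlgebraic K f
  · obtain ⟨a, rfl⟩ := mem_range_of_isAlgebraic halg
    have hset : {v : Place K F | v.ord (algebraMap K F a) ≠ 0} = ∅ := by
      ext v
      simp [ord_algebraMap]
    have hfin : {v : Place K F | v.ord (algebraMap K F a) ≠ 0}.Finite := by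
      rw [hset]; exact Set.finite_empty
    refine ⟨hfin, ?_⟩
    apply Finset.sum_eq_zero
    intro v _
    exact ord_algebraMap v a
  · have hf' : Transcendental K f := halg
    haveI := finiteDimensional_of_transcendental (t := t) hf'
    obtain ⟨h1, h1s⟩ := zeros_sum f hf'
    obtain ⟨h2, h2s⟩ := poles_sum f hf'
    have hset : {v : Place K F | v.ord f ≠ 0} =
        {v : Place K F | 0 < v.ord f} ∪ {v : Place K F | v.ord f < 0} := by
      ext v
      simp only [Set.mem_ofPred_eq, Set.mem_union]
      constructor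
      · intro h; omega
      · intro h; omega
    have hfin : {v : Place K F | v.ord f ≠ 0}.Finite := by
      rw [hset]; exact h1.union h2
    refine ⟨hfin, ?_⟩
    have hdisj : Disjoint h1.toFinset h2.toFinset := by
      rw [Finset.disjoint_left]
      intro v hv1 hv2
      rw [Set.Finite.mem_toFinset] at hv1 hv2
      simp only [Set.mem_ofPred_eq] at hv1 hv2
      omega
    have hun : hfin.toFinset = h1.toFinset ∪ h2.toFinset := by
      ext v
      rw [Finset.mem_union, Set.Finite.mem_toFinset, Set.Finite.mem_toFinset,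
        Set.Finite.mem_toFinset, hset, Set.mem_union]
    rw [hun, Finset.sum_union hdisj, h1s, h2s]
    ring

theorem degree_eq_sum (t : F) [FiniteDimensional K⟮t⟯ F] (D : Divisor K F) :
    Divisor.degree D = ∑ v ∈ D.support, D v := by
  simp only [Divisor.degree, Finsupp.liftAddHom_apply, Finsupp.sum]
  apply Finset.sum_congr rfl
  intro v _
  simp [deg_eq_one (K := K) t v]

theorem hasPrincipalDivisors (t : F) [FiniteDimensional K⟮t⟯ F] :
    HasPrincipalDivisors K F := by
  constructor
  intro f hf
  obtain ⟨hfin, hsum⟩ := ord_finite_sum_zero (K := K) t f hf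
  refine ⟨Finsupp.onFinset hfin.toFinset (fun v => v.ord f) (fun v hv => by
    rw [Set.Finite.mem_toFinset]; exact hv), fun v => rfl, ?_⟩
  rw [degree_eq_sum (K := K) t]
  refine Eq.trans ?_ hsum
  apply Finset.sum_subset
  · intro v hv
    rw [Finsupp.mem_support_iff] at hv
    rw [Set.Finite.mem_toFinset]
    exact hv
  · intro v _ hv
    rw [Finsupp.notMem_support_iff] at hv
    exact hv

end Principal

end Fermat.Agent.Curve
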