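import Mathlib.RingTheory.LaurentSeries
import Fermat.Agent.Curve.Residue

/-!
# Local expansions at a place with residue field `K`
-/

set_option autoImplicit false
set_option linter.style.haveILetI false
set_option linter.unusedSectionVars false

namespace Fermat.Agent.Curve

open AlgebraicCurve PowerSeries

section Expand

variable {K F : Type*} [Field K] [Field F] [Algebra K F] (v : Place K F)
  (hbij : Function.Bijective (algebraMap K v.ResidueField))
  {π : F} (hπ : v.ord π = 1)

/-- The value of a regular function at a rational place. -/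
noncomputable def cst : v.toValuationSubring →ₐ[K] K :=
  ((AlgEquiv.ofBijective (Algebra.ofId K v.ResidueField) hbij).symm.toAlgHom).comp
    (IsScalarTower.toAlgHom K v.toValuationSubring v.ResidueField)

theorem cst_algebraMap (a : K) : cst v hbij (algebraMap K v.toValuationSubring a) = a :=
  (cst v hbij).commutes a

theorem residue_cst (f : v.toValuationSubring) :
    algebraMap K v.ResidueField (cst v hbij f) = IsLocalRing.residue _ f := by
  change (AlgEquiv.ofBijective (Algebra.ofId K v.ResidueField) hbij)
    ((AlgEquiv.ofBijective (Algebra.ofId K v.ResidueField) hbij).symm _) = _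
  rw [AlgEquiv.apply_symm_apply]
  rfl

theorem sub_cst_mem (f : v.toValuationSubring) :
    f - algebraMap K v.toValuationSubring (cst v hbij f) ∈
      IsLocalRing.maximalIdeal v.toValuationSubring := by
  rw [← IsLocalRing.residue_eq_zero_iff, map_sub, sub_eq_zero, ← residue_cst v hbij]
  rfl

theorem cst_eq_zero_iff (f : v.toValuationSubring) :
    cst v hbij f = 0 ↔ f ∈ IsLocalRing.maximalIdeal v.toValuationSubring := by
  rw [← IsLocalRing.residue_eq_zero_iff, ← residue_cst v hbij,
    _root_.map_eq_zero (algebraMap K v.ResidueField)]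

include hπ in
theorem pi_ne_zero : π ≠ 0 := by
  rintro rfl
  simp at hπ

/-- `f ↦ (f - f(v)) / π`. -/
noncomputable def shift : v.toValuationSubring →+ v.toValuationSubring where
  toFun f := ⟨((f : F) - algebraMap K F (cst v hbij f)) / π, by
    have h := sub_cst_mem v hbij f
    rw [mem_nonunits_iff_ord_pos] at h
    have e : ((f - algebraMap K v.toValuationSubring (cst v hbij f) : v.toValuationSubring) : F)
        = (f : F) - algebraMap K F (cst v hbij f) := rfl
    rw [e] at h
    rcases h with h | h
    · rw [h]; simp [zero_mem]
    · rcases eq_or_ne ((f : F) - algebraMap K F (cst v hbij f)) 0 with h0 | h0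
      · rw [h0]; simp [zero_mem]
      apply mem_of_ord_nonneg
      rw [ord_div v h0 (pi_ne_zero v hπ), hπ]
      omega⟩
  map_zero' := by
    apply Subtype.ext
    simp
  map_add' f g := by
    apply Subtype.ext
    change _ / π = _ / π + _ / π
    rw [← add_div, map_add]
    congr 1
    rw [(algebraMap K F).map_add, Subring.coe_add]
    ring

theorem coe_shift (f : v.toValuationSubring) :
    (shift v hbij hπ f : F) = ((f : F) - algebraMap K F (cst v hbij f)) / π := rfl

theorem eq_cst_add (f : v.toValuationSubring) :
    (f : F) = algebraMap K F (cst v hbij f) + π * (shift v hbij hπ f : F) := by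
  rw [coe_shift]
  field_simp [pi_ne_zero v hπ]
  ring

theorem shift_algebraMap (a : K) :
    shift v hbij hπ (algebraMap K v.toValuationSubring a) = 0 := by
  apply Subtype.ext
  rw [coe_shift, cst_algebraMap]
  simp

theorem shift_mul (f g : v.toValuationSubring) :
    shift v hbij hπ (f * g) = shift v hbij hπ f * g +
      algebraMap K v.toValuationSubring (cst v hbij f) * shift v hbij hπ g := by
  apply Subtype.ext
  change (shift v hbij hπ (f * g) : F) = (shift v hbij hπ f : F) * (g : F) +
    algebraMap K F (cst v hbij f) * (shift v hbij hπ g : F)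
  rw [coe_shift, coe_shift, coe_shift, map_mul, (algebraMap K F).map_mul]
  change ((f : F) * (g : F) - _) / π = _
  ring

theorem shift_smul (a : K) (g : v.toValuationSubring) :
    shift v hbij hπ (algebraMap K v.toValuationSubring a * g) =
      algebraMap K v.toValuationSubring a * shift v hbij hπ g := by
  rw [shift_mul, shift_algebraMap, cst_algebraMap]
  ring

/-- The Taylor expansion. -/
noncomputable def expT (f : v.toValuationSubring) : K⟦X⟧ :=
  PowerSeries.mk fun n => cst v hbij ((shift v hbij hπ)^[n] f)

theorem expT_succ (f : v.toValuationSubring) :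
    expT v hbij hπ f = C (cst v hbij f) + X * expT v hbij hπ (shift v hbij hπ f) := by
  ext n
  cases n with
  | zero => simp [expT]
  | succ n =>
    rw [map_add, PowerSeries.coeff_succ_X_mul]
    simp [expT]

theorem expT_add (f g : v.toValuationSubring) :
    expT v hbij hπ (f + g) = expT v hbij hπ f + expT v hbij hπ g := by
  ext n
  simp only [expT, coeff_mk, map_add]
  rw [iterate_map_add, map_add]

theorem expT_smul (a : K) (g : v.toValuationSubring) :
    expT v hbij hπ (algebraMap K v.toValuationSubring a * g) = C a * expT v hbij hπ g := by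
  ext n
  simp only [expT, coeff_mk, coeff_C_mul]
  have : ∀ n : ℕ, (shift v hbij hπ)^[n] (algebraMap K v.toValuationSubring a * g) =
      algebraMap K v.toValuationSubring a * (shift v hbij hπ)^[n] g := by
    intro n
    induction n with
    | zero => rfl
    | succ n ih => rw [Function.iterate_succ_apply', Function.iterate_succ_apply', ih, shift_smul]
  rw [this, map_mul, cst_algebraMap]

theorem expT_zero : expT v hbij hπ 0 = 0 := by
  have := expT_smul v hbij hπ 0 0
  simpa using this

theorem expT_algebraMap (a : K) :
    expT v hbij hπ (algebraMap K v.toValuationSubring a) = C a := by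
  rw [expT_succ, shift_algebraMap, expT_zero, cst_algebraMap, mul_zero, add_zero]

theorem expT_mul_sub (f g : v.toValuationSubring) :
    expT v hbij hπ (f * g) - expT v hbij hπ f * expT v hbij hπ g =
      X * (expT v hbij hπ (shift v hbij hπ f * g) -
        expT v hbij hπ (shift v hbij hπ f) * expT v hbij hπ g) := by
  rw [expT_succ v hbij hπ (f * g), shift_mul, expT_add, expT_smul, map_mul, map_mul]
  conv_lhs => rw [expT_succ v hbij hπ f]
  have h := expT_succ v hbij hπ g
  have h' : X * expT v hbij hπ (shift v hbij hπ g) = expT v hbij hπ g - C (cst v hbij g) := by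
    rw [h]; ring
  linear_combination (C (cst v hbij f)) * h'

theorem expT_mul (f g : v.toValuationSubring) :
    expT v hbij hπ (f * g) = expT v hbij hπ f * expT v hbij hπ g := by
  have key : ∀ n : ℕ, ∀ f g : v.toValuationSubring,
      X ^ n ∣ expT v hbij hπ (f * g) - expT v hbij hπ f * expT v hbij hπ g := by
    intro n
    induction n with
    | zero => intro f g; simp
    | succ n ih =>
      intro f g
      rw [expT_mul_sub, pow_succ, mul_comm (X ^ n) X]
      exact mul_dvd_mul_left X (ih _ g)
  rw [← sub_eq_zero]
  ext n
  have := (PowerSeries.X_pow_dvd_iff.1 (key (n + 1) f g)) n (Nat.lt_succ_self n)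
  simpa using this

/-- The Taylor expansion, as a ring homomorphism. -/
noncomputable def expHom : v.toValuationSubring →+* K⟦X⟧ where
  toFun := expT v hbij hπ
  map_one' := by
    have := expT_algebraMap v hbij hπ 1
    rw [map_one, map_one] at this
    exact this
  map_mul' := expT_mul v hbij hπ
  map_zero' := expT_zero v hbij hπ
  map_add' := expT_add v hbij hπ

theorem eq_pow_mul_of_expT (n : ℕ) : ∀ f : v.toValuationSubring,
    (∀ k < n, coeff k (expT v hbij hπ f) = 0) →
      (f : F) = π ^ n * ((shift v hbij hπ)^[n] f : v.toValuationSubring) := by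
  induction n with
  | zero => intro f _; simp
  | succ n ih =>
    intro f hf
    rw [ih f fun k hk => hf k (hk.trans (Nat.lt_succ_self n)), Function.iterate_succ_apply']
    have h1 := eq_cst_add v hbij hπ ((shift v hbij hπ)^[n] f)
    have h2 : cst v hbij ((shift v hbij hπ)^[n] f) = 0 := by
      have := hf n (Nat.lt_succ_self n)
      simpa [expT] using this
    rw [h2, map_zero, zero_add] at h1
    rw [h1, pow_succ]
    ring

theorem expHom_injective : Function.Injective (expHom v hbij hπ) := by
  rw [injective_iff_map_eq_zero]
  intro f hf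
  by_contra hne
  have hf0 : (f : F) ≠ 0 := by simpa [ne_eq, ZeroMemClass.coe_eq_zero] using hne
  have hord := ord_nonneg_of_mem v f.2
  obtain ⟨m, hm⟩ := Int.eq_ofNat_of_zero_le hord
  have h := eq_pow_mul_of_expT v hbij hπ (m + 1) f (fun k _ => by
    change coeff k (expHom v hbij hπ f) = 0
    rw [hf]; simp)
  have hs : (((shift v hbij hπ)^[m + 1] f : v.toValuationSubring) : F) ≠ 0 := by
    intro h0
    rw [h0, mul_zero] at h
    exact hf0 h
  have h2 := congrArg v.ord h
  rw [v.ord_mul (pow_ne_zero _ (pi_ne_zero v hπ)) hs, ord_pow, hπ, hm] at h2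
  have h3 := ord_nonneg_of_mem v ((shift v hbij hπ)^[m + 1] f).2
  push_cast at h2
  omega

theorem expHom_comp_injective :
    Function.Injective ((HahnSeries.ofPowerSeries ℤ K).comp (expHom v hbij hπ)) :=
  HahnSeries.ofPowerSeries_injective.comp (expHom_injective v hbij hπ)

/-- The Laurent expansion at a place. -/
noncomputable def laurentExp : F →+* LaurentSeries K :=
  IsFractionRing.lift (A := v.toValuationSubring) (K := F) (expHom_comp_injective v hbij hπ)

theorem laurentExp_coe (f : v.toValuationSubring) :
    laurentExp v hbij hπ (f : F) = HahnSeries.ofPowerSeries ℤ K (expT v hbij hπ f) :=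
  IsFractionRing.lift_algebraMap _ f

theorem laurentExp_algebraMap (a : K) :
    laurentExp v hbij hπ (algebraMap K F a) = HahnSeries.C a := by
  have := laurentExp_coe v hbij hπ (algebraMap K v.toValuationSubring a)
  rw [expT_algebraMap, HahnSeries.ofPowerSeries_C] at this
  exact this

theorem laurentExp_pi : laurentExp v hbij hπ π = HahnSeries.single 1 1 := by
  have hmem : π ∈ v.toValuationSubring := mem_of_ord_nonneg v (by rw [hπ]; norm_num)
  have h := laurentExp_coe v hbij hπ ⟨π, hmem⟩
  have hc : cst v hbij ⟨π, hmem⟩ = 0 := by
    rw [cst_eq_zero_iff, mem_nonunits_iff_ord_pos]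
    right
    change 0 < v.ord π
    rw [hπ]
    norm_num
  have hs : shift v hbij hπ ⟨π, hmem⟩ = 1 := by
    apply Subtype.ext
    rw [coe_shift, hc]
    simp [pi_ne_zero v hπ]
  have h1 : expT v hbij hπ 1 = 1 := (expHom v hbij hπ).map_one
  rw [expT_succ, hc, hs, h1, map_zero, zero_add, mul_one, HahnSeries.ofPowerSeries_X] at h
  exact h

theorem order_laurentExp {f : F} (hf : f ≠ 0) : (laurentExp v hbij hπ f).order = v.ord f := by
  obtain ⟨m, hm0, hm⟩ := exists_eq_mul_ord v (fun f => (laurentExp v hbij hπ f).order)
    (by
      intro f g hf hg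
      simp only [map_mul]
      rw [HahnSeries.order_mul]
      · rw [map_ne_zero]; exact hf
      · rw [map_ne_zero]; exact hg)
    (by
      intro f hf h
      have h1 : f ∈ v.toValuationSubring := mem_of_ord_nonneg v h
      have h2 := laurentExp_coe v hbij hπ ⟨f, h1⟩
      change 0 ≤ (laurentExp v hbij hπ f).order
      change laurentExp v hbij hπ f = _ at h2
      rw [h2]
      by_contra hcon
      push Not at hcon
      have hne : HahnSeries.ofPowerSeries ℤ K (expT v hbij hπ ⟨f, h1⟩) ≠ 0 := by
        rw [← h2, map_ne_zero]
        exact hf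
      have h3 := HahnSeries.coeff_orderTop_ne (HahnSeries.order_eq_orderTop_of_ne_zero hne).symm
      have h4 : ∀ i : ℤ, i < 0 →
          (HahnSeries.ofPowerSeries ℤ K (expT v hbij hπ ⟨f, h1⟩)).coeff i = 0 := by
        intro i hi
        rw [HahnSeries.ofPowerSeries_apply]
        refine HahnSeries.embDomain_of_notMem_range ?_
        rintro ⟨k, hk⟩
        rw [← hk] at hi
        exact absurd hi (not_lt.mpr (Int.natCast_nonneg k))
      exact h3 (h4 _ hcon))
  have h1 := hm π (pi_ne_zero v hπ)
  simp only [laurentExp_pi] at h1
  rw [HahnSeries.order_single one_ne_zero, hπ, mul_one] at h1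
  have h2 := hm f hf
  rw [← h1, one_mul] at h2
  exact h2

end Expand

section Theta

variable {K : Type*} [Field K]

/-- The derivation `X d/dX` on Laurent series. -/
noncomputable def theta : LaurentSeries K →+ LaurentSeries K where
  toFun f := ⟨fun n => (n : K) * f.coeff n, f.isPWO_support.mono (by
    intro n hn
    rw [Function.mem_support] at hn
    rw [HahnSeries.mem_support]
    exact right_ne_zero_of_mul hn)⟩
  map_zero' := by
    ext n
    simp
  map_add' f g := by
    ext n
    simp [mul_add]

theorem theta_coeff (f : LaurentSeries K) (n : ℤ) : (theta f).coeff n = (n : K) * f.coeff n := rfl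

theorem theta_mul (f g : LaurentSeries K) : theta (f * g) = theta f * g + f * theta g := by
  ext n
  have hsf : (theta f).support ⊆ f.support := by
    intro i hi
    rw [HahnSeries.mem_support, theta_coeff] at hi
    rw [HahnSeries.mem_support]
    exact right_ne_zero_of_mul hi
  have hsg : (theta g).support ⊆ g.support := by
    intro i hi
    rw [HahnSeries.mem_support, theta_coeff] at hi
    rw [HahnSeries.mem_support]
    exact right_ne_zero_of_mul hi
  rw [theta_coeff, HahnSeries.coeff_add, HahnSeries.coeff_mul,
    HahnSeries.coeff_mul_left' f.isPWO_support hsf,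
    HahnSeries.coeff_mul_right' g.isPWO_support hsg, Finset.mul_sum, ← Finset.sum_add_distrib]
  apply Finset.sum_congr rfl
  rintro ⟨i, j⟩ hij
  rw [Finset.mem_addAntidiagonal] at hij
  obtain ⟨-, -, h⟩ := hij
  simp only at h
  simp only [theta_coeff]
  rw [← h]
  push_cast
  ring

theorem theta_C (a : K) : theta (HahnSeries.C a : LaurentSeries K) = 0 := by
  ext n
  rw [theta_coeff]
  by_cases hn : n = 0
  · simp [hn]
  · simp [HahnSeries.C_apply, HahnSeries.coeff_single_of_ne hn]

theorem theta_order [CharZero K] {f : LaurentSeries K} (hf : f.order ≠ 0) :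
    theta f ≠ 0 ∧ (theta f).order = f.order := by
  have hf0 : f ≠ 0 := by
    rintro rfl
    simp at hf
  have hc := HahnSeries.coeff_orderTop_ne (HahnSeries.order_eq_orderTop_of_ne_zero hf0).symm
  have hc' : (theta f).coeff f.order ≠ 0 := by
    rw [theta_coeff]
    exact mul_ne_zero (by exact_mod_cast hf) hc
  have hne : theta f ≠ 0 := by
    intro h
    rw [h] at hc'
    simp at hc'
  refine ⟨hne, le_antisymm (HahnSeries.order_le_of_coeff_ne_zero hc') ?_⟩
  apply HahnSeries.order_le_of_coeff_ne_zero
  intro h
  have := HahnSeries.coeff_orderTop_ne (HahnSeries.order_eq_orderTop_of_ne_zero hne).symm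
  apply this
  rw [theta_coeff, h, mul_zero]

end Theta

end Fermat.Agent.Curve
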