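import Mathlib.RingTheory.Unramified.Field
import Mathlib.RingTheory.Kaehler.TensorProduct
import Fermat.Prelude.Def_ModularCurve_CanonicalDivisor
import Fermat.Agent.Curve.LocalExp

/-!
# Differentials on a function field of one variable
-/

set_option autoImplicit false
set_option linter.style.haveILetI false
set_option linter.unusedSectionVars false

namespace Fermat.Agent.Curve

open AlgebraicCurve IntermediateField

section Span

variable {K F : Type*} [Field K] [CharZero K] [Field F] [Algebra K F]

theorem D_mem_span_of_mem_adjoin (t : F) {x : F} (hx : x ∈ K⟮t⟯) :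
    KaehlerDifferential.D K F x ∈ Submodule.span F {KaehlerDifferential.D K F t} := by
  induction hx using IntermediateField.adjoin_induction with
  | mem x hx =>
    rw [Set.mem_singleton_iff] at hx
    rw [hx]
    exact Submodule.mem_span_singleton_self _
  | algebraMap a => simp
  | add x y _ _ hx hy => rw [map_add]; exact add_mem hx hy
  | inv x _ hx =>
    rcases eq_or_ne x 0 with rfl | hx0
    · simp
    have h : KaehlerDifferential.D K F (x * x⁻¹) = 0 := by
      rw [mul_inv_cancel₀ hx0]
      simp
    rw [Derivation.leibniz] at h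
    have h2 : x • KaehlerDifferential.D K F x⁻¹ = -(x⁻¹ • KaehlerDifferential.D K F x) :=
      eq_neg_of_add_eq_zero_left h
    have h3 : KaehlerDifferential.D K F x⁻¹ = -(x⁻¹ • x⁻¹ • KaehlerDifferential.D K F x) := by
      rw [← smul_neg, ← h2, smul_smul, inv_mul_cancel₀ hx0, one_smul]
    rw [h3]
    exact neg_mem (Submodule.smul_mem _ _ (Submodule.smul_mem _ _ hx))
  | mul x y _ _ hx hy =>
    rw [Derivation.leibniz]
    exact add_mem (Submodule.smul_mem _ _ hy) (Submodule.smul_mem _ _ hx)

theorem kaehler_span (t : F) [FiniteDimensional K⟮t⟯ F] :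
    Submodule.span F {KaehlerDifferential.D K F t} = ⊤ := by
  rw [eq_top_iff]
  intro ω _
  haveI : CharZero K⟮t⟯ := charZero_of_injective_algebraMap (algebraMap K K⟮t⟯).injective
  haveI : Algebra.FormallyUnramified K⟮t⟯ F := Algebra.FormallyUnramified.of_isSeparable _ _
  have h0 : KaehlerDifferential.map K K⟮t⟯ F F ω = 0 := Subsingleton.elim _ _
  obtain ⟨z, hz⟩ := (KaehlerDifferential.exact_mapBaseChange_map K K⟮t⟯ F ω).1 h0
  rw [← hz]
  clear hz h0
  induction z using TensorProduct.induction_on with
  | zero => simp
  | add x y hx hy => rw [map_add]; exact add_mem hx hy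
  | tmul f η =>
    rw [KaehlerDifferential.mapBaseChange_tmul]
    apply Submodule.smul_mem
    have hη : η ∈ Submodule.span K⟮t⟯ (Set.range (KaehlerDifferential.D K K⟮t⟯)) := by
      rw [KaehlerDifferential.span_range_derivation]; trivial
    induction hη using Submodule.span_induction with
    | mem x hx =>
      obtain ⟨y, rfl⟩ := hx
      rw [KaehlerDifferential.map_D]
      exact D_mem_span_of_mem_adjoin t y.2
    | zero => simp
    | add x y _ _ hx hy => rw [map_add]; exact add_mem hx hy
    | smul a x _ hx =>
      rw [map_smul, ← algebraMap_smul F a]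
      exact Submodule.smul_mem _ _ hx

end Span

section OrdD

variable {K F : Type*} [Field K] [CharZero K] [Field F] [Algebra K F] (v : Place K F)
  (hbij : Function.Bijective (algebraMap K v.ResidueField))
  {π : F} (hπ : v.ord π = 1)

/-- `LaurentSeries K` as a module over `F`. -/
def LModule (_h : F →+* LaurentSeries K) : Type _ := LaurentSeries K

noncomputable instance (h : F →+* LaurentSeries K) : AddCommGroup (LModule h) :=
  inferInstanceAs (AddCommGroup (LaurentSeries K))

noncomputable instance (h : F →+* LaurentSeries K) : Module F (LModule h) :=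
  Module.compHom (LaurentSeries K) h

noncomputable instance (h : F →+* LaurentSeries K) : Module K (LModule h) :=
  Module.compHom (LaurentSeries K) (h.comp (algebraMap K F))

instance (h : F →+* LaurentSeries K) : IsScalarTower K F (LModule h) := by
  constructor
  intro a f m
  change (h (a • f) * (show LaurentSeries K from m) : LaurentSeries K) =
    h (algebraMap K F a) * (h f * (show LaurentSeries K from m))
  rw [Algebra.smul_def, map_mul, mul_assoc]

/-- The derivation `f ↦ X d/dX (f(X))`. -/
noncomputable def thetaDer (h : F →+* LaurentSeries K)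
    (hC : ∀ a : K, h (algebraMap K F a) = HahnSeries.C a) : Derivation K F (LModule h) where
  toFun f := (theta (h f) : LaurentSeries K)
  map_add' f g := by
    change theta (h (f + g)) = theta (h f) + theta (h g)
    rw [map_add, map_add]
  map_smul' a f := by
    change theta (h (a • f)) = h (algebraMap K F a) * theta (h f)
    rw [Algebra.smul_def, map_mul, theta_mul, hC, theta_C]
    ring
  map_one_eq_zero' := by
    change theta (h 1) = 0
    rw [map_one, ← map_one (HahnSeries.C (Γ := ℤ) (R := K)), theta_C]
  leibniz' f g := by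
    change theta (h (f * g)) = h f * theta (h g) + h g * theta (h f)
    rw [map_mul, theta_mul]
    ring

theorem thetaDer_lift_smul (h : F →+* LaurentSeries K)
    (hC : ∀ a : K, h (algebraMap K F a) = HahnSeries.C a) (g x : F) :
    (thetaDer h hC).liftKaehlerDifferential (g • KaehlerDifferential.D K F x)
      = (h g * theta (h x) : LaurentSeries K) := by
  rw [map_smul, Derivation.liftKaehlerDifferential_comp_D]
  rfl

include hbij hπ in
theorem theta_eq_of_eq_smul {g x y : F}
    (hxy : KaehlerDifferential.D K F x = g • KaehlerDifferential.D K F y) :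
    theta (laurentExp v hbij hπ x) = laurentExp v hbij hπ g * theta (laurentExp v hbij hπ y) := by
  have h1 := thetaDer_lift_smul (laurentExp v hbij hπ) (laurentExp_algebraMap v hbij hπ) 1 x
  have h2 := thetaDer_lift_smul (laurentExp v hbij hπ) (laurentExp_algebraMap v hbij hπ) g y
  rw [one_smul, hxy, h2, map_one, one_mul] at h1
  exact h1.symm

theorem theta_single_one : theta (HahnSeries.single 1 1 : LaurentSeries K) =
    HahnSeries.single 1 1 := by
  ext n
  rw [theta_coeff]
  by_cases hn : n = 1
  · simp [hn]
  · simp [HahnSeries.coeff_single_of_ne hn]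

include hbij hπ in
theorem ord_of_D_eq_smul {g x : F} (hx : v.ord x ≠ 0)
    (hxy : KaehlerDifferential.D K F x = g • KaehlerDifferential.D K F π) :
    g ≠ 0 ∧ v.ord g = v.ord x - 1 := by
  have hx0 : x ≠ 0 := by rintro rfl; simp at hx
  have h := theta_eq_of_eq_smul v hbij hπ hxy
  rw [laurentExp_pi, theta_single_one] at h
  have h1 := theta_order (f := laurentExp v hbij hπ x) (by rwa [order_laurentExp v hbij hπ hx0])
  have hg : g ≠ 0 := by
    rintro rfl
    rw [map_zero, zero_mul] at h
    exact h1.1 h
  refine ⟨hg, ?_⟩
  have h2 := congrArg HahnSeries.order h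
  rw [h1.2, HahnSeries.order_mul (by rwa [ne_eq, map_eq_zero]) (by simp),
    order_laurentExp v hbij hπ hx0, order_laurentExp v hbij hπ hg,
    HahnSeries.order_single one_ne_zero] at h2
  omega

include hbij hπ in
theorem D_ne_zero_of_ord_eq_one : KaehlerDifferential.D K F π ≠ 0 := by
  intro h
  have h1 := theta_eq_of_eq_smul v hbij hπ (g := 0) (x := π) (y := π) (by rw [h]; simp)
  rw [laurentExp_pi, theta_single_one, map_zero, zero_mul] at h1
  simp at h1

theorem exists_dCoord (v : Place K F) :
    ∃ π : F, v.ord π = 1 ∧ v.dCoord = KaehlerDifferential.D K F π :=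
  ⟨_, v.ord_coe_irreducible
    (IsDiscreteValuationRing.exists_irreducible v.toValuationSubring).choose_spec, rfl⟩

end OrdD

section Main

variable {K F : Type*} [Field K] [IsAlgClosed K] [CharZero K] [Field F] [Algebra K F]

theorem bijective_residue (t : F) [FiniteDimensional K⟮t⟯ F] (v : Place K F) :
    Function.Bijective (algebraMap K v.ResidueField) := by
  refine ⟨(algebraMap K v.ResidueField).injective, ?_⟩
  intro y
  obtain ⟨x, rfl⟩ := IsLocalRing.residue_surjective y
  obtain ⟨a, ha⟩ := exists_const t v x.2
  refine ⟨a, ?_⟩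
  have h1 : algebraMap K v.ResidueField a
      = IsLocalRing.residue _ (algebraMap K v.toValuationSubring a) := rfl
  rw [h1]
  symm
  rw [← sub_eq_zero, ← map_sub, IsLocalRing.residue_eq_zero_iff, mem_nonunits_iff_ord_pos]
  exact ha

theorem dCoordGenerates (t : F) [FiniteDimensional K⟮t⟯ F] (v : Place K F) :
    v.DCoordGenerates := by
  obtain ⟨π, hπ, hd⟩ := exists_dCoord v
  haveI : FiniteDimensional K⟮π⟯ F := finiteDimensional_of_transcendental (t := t)
    (transcendental_of_ord_ne_zero v (by rw [hπ]; norm_num))
  exact ⟨by rw [hd]; exact kaehler_span π⟩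

theorem nontrivial_kaehler (t : F) [FiniteDimensional K⟮t⟯ F] (v : Place K F) :
    Nontrivial (Ω[F⁄K]) := by
  obtain ⟨π, hπ, hd⟩ := exists_dCoord v
  exact ⟨_, _, D_ne_zero_of_ord_eq_one v (bijective_residue t v) hπ⟩

/-- The order of `g dt` at a place where `ord t ≠ 0`. -/
theorem ordDifferential_smul_D (t : F) [FiniteDimensional K⟮t⟯ F] (v : Place K F) {g x : F}
    (hg : g ≠ 0) (hx : v.ord x ≠ 0) :
    v.ordDifferential (g • KaehlerDifferential.D K F x) = v.ord g + v.ord x - 1 := by
  haveI := dCoordGenerates t v
  haveI := nontrivial_kaehler t v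
  obtain ⟨π, hπ, hd⟩ := exists_dCoord v
  have h1 := v.differentialCoeff_smul_dCoord (KaehlerDifferential.D K F x)
  rw [hd] at h1
  have h2 := ord_of_D_eq_smul v (bijective_residue t v) hπ hx h1.symm
  rw [v.ordDifferential_smul hg h2.1]
  change v.ord g + v.ord (v.differentialCoeff _) = _
  rw [h2.2]
  ring

end Main

end Fermat.Agent.Curve
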