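import Fermat.Prelude.Def_AlgebraicCurve_CanonicalDivisor
import Fermat.Agent.Curve.Differential

/-!
# Riemann–Hurwitz for covers of the line unramified outside three points
-/

set_option autoImplicit false
set_option linter.style.haveILetI false
set_option linter.unusedSectionVars false

namespace Fermat.Agent.Curve

open AlgebraicCurve IntermediateField

variable {K F : Type*} [Field K] [IsAlgClosed K] [CharZero K] [Field F] [Algebra K F]

theorem adjoin_simple_sub (t : F) (a : K) : K⟮t - algebraMap K F a⟯ = K⟮t⟯ := by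
  apply le_antisymm
  · rw [adjoin_simple_le_iff]
    exact sub_mem (mem_adjoin_simple_self K t) (IntermediateField.algebraMap_mem _ a)
  · rw [adjoin_simple_le_iff]
    have := add_mem (mem_adjoin_simple_self K (t - algebraMap K F a))
      (IntermediateField.algebraMap_mem K⟮t - algebraMap K F a⟯ a)
    simpa using this

theorem transcendental_sub {t : F} (ht : Transcendental K t) (a : K) :
    Transcendental K (t - algebraMap K F a) := by
  intro h
  apply ht
  have := h.add (isAlgebraic_algebraMap a)
  simpa using this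

theorem zeros_sub_sum (t : F) (ht : Transcendental K t) [FiniteDimensional K⟮t⟯ F] (a : K) :
    ∃ hfin : {v : Place K F | 0 < v.ord (t - algebraMap K F a)}.Finite,
      ∑ v ∈ hfin.toFinset, v.ord (t - algebraMap K F a) = Module.finrank K⟮t⟯ F := by
  haveI : FiniteDimensional K⟮t - algebraMap K F a⟯ F := by
    rw [adjoin_simple_sub]; infer_instance
  obtain ⟨hfin, hsum⟩ := zeros_sum (t - algebraMap K F a) (transcendental_sub ht a)
  refine ⟨hfin, ?_⟩
  rw [hsum, adjoin_simple_sub]

theorem ord_neg_of_not_mem (v : Place K F) {f : F} (h : f ∉ v.toValuationSubring) :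
    v.ord f < 0 := by
  by_contra hcon
  exact h (mem_of_ord_nonneg v (not_lt.mp hcon))

/-- If `t - a` vanishes at `v` then `t` has nonnegative order and `t - b` has order `0`. -/
theorem ord_sub_of_pos (v : Place K F) {t : F} (ht : Transcendental K t) {a b : K} (hab : a ≠ b)
    (h : 0 < v.ord (t - algebraMap K F a)) : v.ord (t - algebraMap K F b) = 0 := by
  have e : t - algebraMap K F b = algebraMap K F (a - b) + (t - algebraMap K F a) := by
    rw [map_sub]; ring
  have h1 : algebraMap K F (a - b) ≠ 0 := by
    rw [ne_eq, map_eq_zero]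
    exact sub_ne_zero.2 hab
  have h2 : t - algebraMap K F a ≠ 0 := by
    intro h0
    rw [h0] at h
    simp at h
  rw [e, ord_add_eq_of_lt v h1 h2 (by rw [ord_algebraMap]; exact h), ord_algebraMap]

theorem ord_nonneg_of_sub_pos (v : Place K F) {t : F} {a : K}
    (h : 0 < v.ord (t - algebraMap K F a)) : 0 ≤ v.ord t := by
  apply ord_nonneg_of_mem
  have h1 : t - algebraMap K F a ∈ v.toValuationSubring := mem_of_ord_nonneg v h.le
  have := add_mem h1 (v.algebraMap_mem' a)
  simpa using this

theorem exists_sub_pos (v : Place K F) {t : F} (ht : Transcendental K t)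
    [FiniteDimensional K⟮t⟯ F] (h : 0 ≤ v.ord t) : ∃ a : K, 0 < v.ord (t - algebraMap K F a) := by
  obtain ⟨a, ha⟩ := exists_const t v (mem_of_ord_nonneg v h)
  refine ⟨a, ha.resolve_left ?_⟩
  intro h0
  apply transcendental_sub ht a
  rw [h0]
  exact isAlgebraic_zero

theorem degree_canonical (t : F) (ht : Transcendental K t) [FiniteDimensional K⟮t⟯ F] (a b : K)
    (hab : a ≠ b)
    (hunr : ∀ c : K, c ≠ a → c ≠ b → ∀ v : Place K F, 0 < v.ord (t - algebraMap K F c) →
      v.ord (t - algebraMap K F c) = 1) {ω : Ω[F⁄K]} (hω : ω ≠ 0) (D : Divisor K F)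
    (hD : ∀ v, D v = v.ordDifferential ω) :
    Divisor.degree D = (Module.finrank K⟮t⟯ F : ℤ)
      - (Set.ncard {v : Place K F | 0 < v.ord (t - algebraMap K F a)} : ℤ)
      - (Set.ncard {v : Place K F | 0 < v.ord (t - algebraMap K F b)} : ℤ)
      - (Set.ncard {v : Place K F | v.ord t < 0} : ℤ) := by
  classical
  have hωt : ω ∈ Submodule.span F {KaehlerDifferential.D K F t} := by
    rw [kaehler_span t]; trivial
  obtain ⟨g, hg⟩ := Submodule.mem_span_singleton.1 hωt
  have hg0 : g ≠ 0 := by
    rintro rfl
    rw [zero_smul] at hg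
    exact hω hg.symm
  have hDc : ∀ c : K, KaehlerDifferential.D K F (t - algebraMap K F c)
      = KaehlerDifferential.D K F t := by
    intro c
    rw [map_sub, Derivation.map_algebraMap, sub_zero]
  obtain ⟨ha, has⟩ := zeros_sub_sum t ht a
  obtain ⟨hb, hbs⟩ := zeros_sub_sum t ht b
  obtain ⟨hp, hps⟩ := poles_sum t ht
  obtain ⟨hgf, hgs⟩ := ord_finite_sum_zero (K := K) t g hg0
  generalize Module.finrank K⟮t⟯ F = n at *
  -- the local contributions
  have hpole : ∀ v : Place K F, v.ord t < 0 → D v = v.ord g + (v.ord t - 1) := by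
    intro v hv
    rw [hD, ← hg, ordDifferential_smul_D t v hg0 (by omega)]
    ring
  have hfinite : ∀ (c : K) (v : Place K F), 0 < v.ord (t - algebraMap K F c) →
      D v = v.ord g + (v.ord (t - algebraMap K F c) - 1) := by
    intro c v hv
    rw [hD, ← hg, ← hDc c, ordDifferential_smul_D t v hg0 (by omega)]
    ring
  set A := ha.toFinset with hA
  set B := hb.toFinset with hB
  set P := hp.toFinset with hP
  have mA : ∀ v, v ∈ A ↔ 0 < v.ord (t - algebraMap K F a) := fun v => by
    rw [hA, Set.Finite.mem_toFinset]; rfl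
  have mB : ∀ v, v ∈ B ↔ 0 < v.ord (t - algebraMap K F b) := fun v => by
    rw [hB, Set.Finite.mem_toFinset]; rfl
  have mP : ∀ v, v ∈ P ↔ v.ord t < 0 := fun v => by
    rw [hP, Set.Finite.mem_toFinset]; rfl
  let r : Place K F → ℤ := fun v =>
    (if v ∈ A then v.ord (t - algebraMap K F a) - 1 else 0) +
    (if v ∈ B then v.ord (t - algebraMap K F b) - 1 else 0) +
    (if v ∈ P then v.ord t - 1 else 0)
  have hr : ∀ v, D v = v.ord g + r v := by
    intro v
    simp only [r]
    by_cases h1 : v.ord t < 0
    · have nA : v ∉ A := by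
        rw [mA]; intro h; have := ord_nonneg_of_sub_pos v h; omega
      have nB : v ∉ B := by
        rw [mB]; intro h; have := ord_nonneg_of_sub_pos v h; omega
      rw [if_neg nA, if_neg nB, if_pos ((mP v).2 h1), hpole v h1]
      ring
    · have nP : v ∉ P := by rw [mP]; exact h1
      rw [if_neg nP]
      obtain ⟨c, hc⟩ := exists_sub_pos v ht (not_lt.mp h1)
      by_cases hca : c = a
      · rw [hca] at hc
        have nB : v ∉ B := by
          rw [mB, ord_sub_of_pos v ht hab hc]; simp
        rw [if_neg nB, if_pos ((mA v).2 hc), hfinite a v hc]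
        ring
      · have nA : v ∉ A := by
          rw [mA, ord_sub_of_pos v ht hca hc]; simp
        rw [if_neg nA]
        by_cases hcb : c = b
        · rw [hcb] at hc
          rw [if_pos ((mB v).2 hc), hfinite b v hc]
          ring
        · have nB : v ∉ B := by
            rw [mB, ord_sub_of_pos v ht hcb hc]; simp
          rw [if_neg nB, hfinite c v hc, hunr c hca hcb v hc]
          ring
  let U : Finset (Place K F) := D.support ∪ hgf.toFinset ∪ A ∪ B ∪ P
  have e1 : Divisor.degree D = ∑ v ∈ U, D v := by
    rw [degree_eq_sum (K := K) t]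
    apply Finset.sum_subset
    · intro v hv
      simp only [U, Finset.mem_union]
      exact Or.inl (Or.inl (Or.inl (Or.inl hv)))
    · intro v _ hv
      rwa [Finsupp.notMem_support_iff] at hv
  have e2 : ∑ v ∈ U, v.ord g = 0 := by
    rw [← hgs]
    symm
    apply Finset.sum_subset
    · intro v hv
      simp only [U, Finset.mem_union]
      exact Or.inl (Or.inl (Or.inl (Or.inr hv)))
    · intro v _ hv
      rw [Set.Finite.mem_toFinset] at hv
      by_contra h
      exact hv h
  have e3 : ∀ (S : Finset (Place K F)) (φ : Place K F → ℤ), S ⊆ U →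
      ∑ v ∈ U, (if v ∈ S then φ v else 0) = ∑ v ∈ S, φ v := by
    intro S φ hS
    rw [← Finset.sum_filter]
    apply Finset.sum_congr _ fun _ _ => rfl
    ext v
    rw [Finset.mem_filter]
    exact ⟨fun h => h.2, fun h => ⟨hS h, h⟩⟩
  have hAU : A ⊆ U := fun v hv => by
    simp only [U, Finset.mem_union]; exact Or.inl (Or.inl (Or.inr hv))
  have hBU : B ⊆ U := fun v hv => by
    simp only [U, Finset.mem_union]; exact Or.inl (Or.inr hv)
  have hPU : P ⊆ U := fun v hv => by
    simp only [U, Finset.mem_union]; exact Or.inr hv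
  have e4 : ∑ v ∈ U, r v = (n - A.card) + (n - B.card) + (-n - P.card) := by
    simp only [r, Finset.sum_add_distrib]
    rw [e3 A _ hAU, e3 B _ hBU, e3 P _ hPU, Finset.sum_sub_distrib, Finset.sum_sub_distrib,
      Finset.sum_sub_distrib, has, hbs, hps]
    simp
  rw [Set.ncard_eq_toFinset_card _ ha, Set.ncard_eq_toFinset_card _ hb,
    Set.ncard_eq_toFinset_card _ hp, e1, Finset.sum_congr rfl fun v _ => hr v,
    Finset.sum_add_distrib, e2, e4]
  ring

end Fermat.Agent.Curve
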