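import Mathlib.RingTheory.IntegralClosure.IntegralRestrict
import Mathlib.RingTheory.Norm.Transitivity
import Mathlib.RingTheory.Ideal.Operations
import Fermat.Agent.Curve.Hurwitz

/-!
# Places over a point and valuations on an extension receiving all embeddings
-/

set_option autoImplicit false
set_option linter.style.haveILetI false
set_option linter.unusedSectionVars false
set_option linter.unusedVariables false

namespace Fermat.Agent.Curve

open AlgebraicCurve IsDedekindDomain WithZero

section Center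

variable {K F : Type*} [Field K] [Field F] [Algebra K F]
variable {B : Type*} [CommRing B] [IsDedekindDomain B] [Algebra B F] [IsFractionRing B F]
  [Algebra K B] [IsScalarTower K B F]

/-- A place whose valuation ring contains `B` comes from a prime of `B`. -/
theorem exists_heightOne_of_le (v : Place K F)
    (hB : ∀ b : B, algebraMap B F b ∈ v.toValuationSubring) :
    ∃ P : HeightOneSpectrum B, Place.ofHeightOneSpectrum (K := K) (F := F) P = v ∧
      ∀ b : B, b ≠ 0 → (b ∈ P.asIdeal ↔ 0 < v.ord (algebraMap B F b)) := by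
  let ι : B →+* v.toValuationSubring :=
    (algebraMap B F).codRestrict v.toValuationSubring.toSubring hB
  let P : Ideal B := (IsLocalRing.maximalIdeal v.toValuationSubring).comap ι
  have hPprime : P.IsPrime := Ideal.comap_isPrime ι _
  have hPmem : ∀ b : B, b ≠ 0 → (b ∈ P ↔ 0 < v.ord (algebraMap B F b)) := by
    intro b hb
    have hb' : algebraMap B F b ≠ 0 := by
      rw [ne_eq, map_eq_zero_iff _ (IsFractionRing.injective B F)]
      exact hb
    change ι b ∈ IsLocalRing.maximalIdeal v.toValuationSubring ↔ _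
    rw [mem_nonunits_iff_ord_pos]
    have : ((ι b : v.toValuationSubring) : F) = algebraMap B F b := rfl
    rw [this]
    exact ⟨fun h => h.resolve_left hb', Or.inr⟩
  have hord : ∀ b : B, b ≠ 0 → b ∉ P → v.ord (algebraMap B F b) = 0 := by
    intro b hb hbP
    apply le_antisymm
    · by_contra hcon
      push Not at hcon
      exact hbP ((hPmem _ hb).2 hcon)
    · exact ord_nonneg_of_mem v (hB _)
  have hPne : P ≠ ⊥ := by
    intro hbot
    obtain ⟨f, hf0, hf⟩ := exists_ord_eq v 1
    obtain ⟨x, y, hy, hxy⟩ := IsFractionRing.div_surjective (A := B) f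
    have hy0 : y ≠ 0 := nonZeroDivisors.ne_zero hy
    have hx0 : x ≠ 0 := by
      rintro rfl
      rw [map_zero, zero_div] at hxy
      exact hf0 hxy.symm
    have hx' : algebraMap B F x ≠ 0 := by
      rw [ne_eq, map_eq_zero_iff _ (IsFractionRing.injective B F)]
      exact hx0
    have hy' : algebraMap B F y ≠ 0 := by
      rw [ne_eq, map_eq_zero_iff _ (IsFractionRing.injective B F)]
      exact hy0
    rw [← hxy, ord_div v hx' hy', hord x hx0 (by rw [hbot]; exact hx0),
      hord y hy0 (by rw [hbot]; exact hy0)] at hf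
    norm_num at hf
  refine ⟨⟨P, hPprime, hPne⟩, ?_, hPmem⟩
  apply place_eq_of_le
  intro x hx
  rcases eq_or_ne x 0 with rfl | hx0
  · exact zero_mem _
  rw [Place.ofHeightOneSpectrum_toValuationSubring, Valuation.mem_valuationSubring_iff] at hx
  obtain ⟨n, d, hnd⟩ := HeightOneSpectrum.exists_primeCompl_mul_eq_of_integer _ _ hx
  have hd : (d : B) ∉ P := d.2
  have hd0 : (d : B) ≠ 0 := fun h => hd (h ▸ P.zero_mem)
  have hdF : algebraMap B F d ≠ 0 := by
    rw [ne_eq, map_eq_zero_iff _ (IsFractionRing.injective B F)]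
    exact hd0
  apply mem_of_ord_nonneg
  have h3 := v.ord_mul hx0 hdF
  rw [hord _ hd0 hd, add_zero, hnd] at h3
  rw [← h3]
  exact ord_nonneg_of_mem v (hB _)

/-- Separation of places by elements of `B`. -/
theorem exists_separating (v : Place K F)
    (hB : ∀ b : B, algebraMap B F b ∈ v.toValuationSubring) (T : Finset (Place K F))
    (hT : ∀ u ∈ T, u ≠ v ∧ ∀ b : B, algebraMap B F b ∈ u.toValuationSubring) :
    ∃ b : B, b ≠ 0 ∧ 0 < v.ord (algebraMap B F b) ∧ ∀ u ∈ T, u.ord (algebraMap B F b) = 0 := by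
  classical
  obtain ⟨P, hPv, hP⟩ := exists_heightOne_of_le v hB
  have hQ : ∀ u : Place K F, u ∈ T → ∃ Q : HeightOneSpectrum B,
      Place.ofHeightOneSpectrum (K := K) (F := F) Q = u ∧
      ∀ b : B, b ≠ 0 → (b ∈ Q.asIdeal ↔ 0 < u.ord (algebraMap B F b)) :=
    fun u hu => exists_heightOne_of_le u (hT u hu).2
  rcases T.eq_empty_or_nonempty with rfl | ⟨u0, hu0⟩
  · obtain ⟨b, hb, hb0⟩ := Submodule.exists_mem_ne_zero_of_ne_bot P.ne_bot
    exact ⟨b, hb0, (hP b hb0).1 hb, by simp⟩
  haveI : Nonempty (HeightOneSpectrum B) := ⟨P⟩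
  choose! Q hQ1 hQ2 using hQ
  have hnot : ¬ ((P.asIdeal : Set B) ⊆ ⋃ u ∈ (↑T : Set (Place K F)), (Q u).asIdeal) := by
    rw [Ideal.subset_union_prime u0 u0 (fun i _ _ _ => (Q i).isPrime)]
    rintro ⟨u, hu, hle⟩
    have : P.asIdeal = (Q u).asIdeal := P.isMaximal.eq_of_le (Q u).isPrime.ne_top hle
    have h2 : P = Q u := HeightOneSpectrum.ext this
    apply (hT u hu).1
    rw [← hQ1 u hu, ← h2, hPv]
  rw [Set.not_subset] at hnot
  obtain ⟨b, hbP, hbQ⟩ := hnot
  simp only [Set.mem_iUnion, Finset.mem_coe, not_exists] at hbQ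
  have hb0 : b ≠ 0 := by
    rintro rfl
    exact hbQ u0 hu0 ((Q u0).asIdeal.zero_mem)
  refine ⟨b, hb0, (hP b hb0).1 hbP, ?_⟩
  intro u hu
  apply le_antisymm
  · by_contra hcon
    push Not at hcon
    exact hbQ u hu ((hQ2 u hu b hb0).2 hcon)
  · exact ord_nonneg_of_mem u ((hT u hu).2 b)

end Center

section Embeddings

open Polynomial IntermediateField

variable {K F Ω : Type*} [Field K] [IsAlgClosed K] [CharZero K] [Field F] [Algebra K F] [Field Ω]

/-- The place attached to an embedding `φ : F → Ω` and a valuation `w` on `Ω`. -/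
theorem exists_place_of_embedding (φ : F →+* Ω) (w : Ω → ℤ)
    (hwmul : ∀ f g : Ω, f ≠ 0 → g ≠ 0 → w (f * g) = w f + w g)
    (hwadd : ∀ f g : Ω, f ≠ 0 → g ≠ 0 → f + g ≠ 0 → min (w f) (w g) ≤ w (f + g))
    (hwK : ∀ a : K, a ≠ 0 → w (φ (algebraMap K F a)) = 0)
    (hnt : ∃ f : F, f ≠ 0 ∧ w (φ f) ≠ 0) :
    ∃ v : Place K F, ∃ m : ℤ, 0 < m ∧ ∀ f : F, f ≠ 0 → w (φ f) = m * v.ord f := by
  apply exists_place_of_valuation (fun f => w (φ f))
  · intro f g hf hg
    simp only [map_mul]
    exact hwmul _ _ (by rwa [ne_eq, _root_.map_eq_zero]) (by rwa [ne_eq, _root_.map_eq_zero])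
  · intro f g hf hg hfg
    rw [map_add]
    apply hwadd
    · rwa [ne_eq, _root_.map_eq_zero]
    · rwa [ne_eq, _root_.map_eq_zero]
    · rw [← map_add, ne_eq, _root_.map_eq_zero]
      exact hfg
  · exact hwK
  · exact hnt

/-- Every place over `t = 0` comes from one of the `n` embeddings `F → Ω`. -/
theorem exists_embedding_of_place (t : F) (ht : Transcendental K t) [FiniteDimensional K⟮t⟯ F]
    {X : Type*} [Finite X] (φ : X → F →+* Ω) (hφinj : Function.Injective φ)
    (hφ : ∀ x y, ∀ z ∈ K⟮t⟯, φ x z = φ y z)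
    (hcard : Nat.card X = Module.finrank K⟮t⟯ F)
    (w : Ω → ℤ) (hwmul : ∀ f g : Ω, f ≠ 0 → g ≠ 0 → w (f * g) = w f + w g)
    (hwadd : ∀ f g : Ω, f ≠ 0 → g ≠ 0 → f + g ≠ 0 → min (w f) (w g) ≤ w (f + g))
    (hwK : ∀ x, ∀ a : K, a ≠ 0 → w (φ x (algebraMap K F a)) = 0)
    (hwt : ∀ x, 0 < w (φ x t)) (v : Place K F) (hv : 0 < v.ord t) :
    ∃ x, ∃ m : ℤ, 0 < m ∧ ∀ f : F, f ≠ 0 → w (φ x f) = m * v.ord f := by
  classical
  haveI := Fintype.ofFinite X
  have ht0 : t ≠ 0 := by rintro rfl; simp at hv
  have hpl : ∀ x, ∃ u : Place K F, ∃ m : ℤ, 0 < m ∧ ∀ f : F, f ≠ 0 → w (φ x f) = m * u.ord f :=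
    fun x => exists_place_of_embedding (φ x) w hwmul hwadd (hwK x) ⟨t, ht0, (hwt x).ne'⟩
  choose pl m hm0 hm using hpl
  by_contra hcon
  push Not at hcon
  have hne : ∀ x, pl x ≠ v := by
    intro x hx
    obtain ⟨f, hf0, hf⟩ := hcon x (m x) (hm0 x)
    apply hf
    rw [hm x f hf0, hx]
  -- set up the integral closure
  let g : K⟮t⟯ := AdjoinSimple.gen K t
  letI : Algebra K[X] K⟮t⟯ := (aeval g).toRingHom.toAlgebra
  letI : Algebra K[X] F := (aeval t).toRingHom.toAlgebra
  haveI : IsScalarTower K[X] K⟮t⟯ F := by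
    refine IsScalarTower.of_algebraMap_eq fun p => ?_
    change aeval t p = algebraMap K⟮t⟯ F (aeval g p)
    rw [← aeval_algebraMap_apply]
    rfl
  haveI : IsScalarTower K K[X] F := by
    refine IsScalarTower.of_algebraMap_eq fun a => ?_
    change algebraMap K F a = aeval t (algebraMap K K[X] a)
    simp
  haveI : IsFractionRing K[X] K⟮t⟯ := by
    let e : RatFunc K ≃ₐ[K[X]] K⟮t⟯ :=
      AlgEquiv.ofRingEquiv (f := (RatFunc.algEquivOfTranscendental t ht).toRingEquiv)
        (fun p => RatFunc.algEquivOfTranscendental_algebraMap t ht p)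
    exact IsLocalization.isLocalization_of_algEquiv (nonZeroDivisors K[X]) e
  haveI : CharZero K⟮t⟯ := charZero_of_injective_algebraMap (algebraMap K K⟮t⟯).injective
  let B := integralClosure K[X] F
  haveI : IsFractionRing B F := integralClosure.isFractionRing_of_finite_extension K⟮t⟯ F
  haveI : IsDedekindDomain B := integralClosure.isDedekindDomain K[X] K⟮t⟯ F
  haveI : Module.Finite K[X] B := IsIntegralClosure.finite K[X] K⟮t⟯ F B
  haveI : IsScalarTower K B F := IsScalarTower.of_algebraMap_eq fun a => rfl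
  have hX : algebraMap K[X] F Polynomial.X = t := by
    change aeval t Polynomial.X = t
    simp
  have hinjRF : Function.Injective (algebraMap K[X] F) := by
    rw [IsScalarTower.algebraMap_eq K[X] K⟮t⟯ F]
    exact (algebraMap K⟮t⟯ F).injective.comp (IsFractionRing.injective K[X] K⟮t⟯)
  have hinjRB : Function.Injective (algebraMap K[X] B) := by
    intro a b hab
    apply hinjRF
    rw [IsScalarTower.algebraMap_apply K[X] B F, IsScalarTower.algebraMap_apply K[X] B F, hab]
  haveI : FaithfulSMul K[X] B := (faithfulSMul_iff_algebraMap_injective K[X] B).2 hinjRB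
  -- places over zero contain `B`
  have hcont : ∀ u : Place K F, 0 < u.ord t → ∀ b : B, algebraMap B F b ∈ u.toValuationSubring := by
    intro u hu b
    have htu : t ∈ u.toValuationSubring := mem_of_ord_nonneg u hu.le
    have h1 : ∀ r : K[X], algebraMap K[X] F r ∈ u.toValuationSubring := by
      intro r
      change aeval t r ∈ u.toValuationSubring
      rw [aeval_eq_sum_range]
      refine sum_mem fun i _ => ?_
      rw [Algebra.smul_def]
      exact mul_mem (u.algebraMap_mem' _) (pow_mem htu i)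
    have hb : IsIntegral K[X] (b : F) := b.2
    obtain ⟨q, hq, hq0⟩ := hb
    have h2 : IsIntegral u.toValuationSubring (b : F) := by
      let ψ : K[X] →+* u.toValuationSubring :=
        (algebraMap K[X] F).codRestrict u.toValuationSubring.toSubring h1
      refine ⟨q.map ψ, hq.map ψ, ?_⟩
      rw [Polynomial.eval₂_map]
      exact hq0
    obtain ⟨y, hy⟩ := IsIntegrallyClosed.isIntegral_iff.mp h2
    change (b : F) ∈ _
    rw [← hy]
    exact y.2
  have hplpos : ∀ x, 0 < (pl x).ord t := by
    intro x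
    have h1 := hm x t ht0
    have h2 := hwt x
    rw [h1] at h2
    have h3 := hm0 x
    by_contra hcon
    push Not at hcon
    nlinarith
  obtain ⟨b, hb0, hbv, hbT⟩ := exists_separating (B := B) v (hcont v hv)
    (Finset.univ.image pl) (by
      intro u hu
      rw [Finset.mem_image] at hu
      obtain ⟨x, -, rfl⟩ := hu
      exact ⟨hne x, hcont _ (hplpos x)⟩)
  have hbF : algebraMap B F b ≠ 0 := by
    rw [ne_eq, map_eq_zero_iff _ (IsFractionRing.injective B F)]
    exact hb0
  have hbx : ∀ x, w (φ x (algebraMap B F b)) = 0 := by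
    intro x
    rw [hm x _ hbF, hbT (pl x) (Finset.mem_image_of_mem pl (Finset.mem_univ x)), mul_zero]
  -- the norm
  obtain ⟨c, hc⟩ := Algebra.dvd_algebraMap_intNorm_self K[X] B b
  set q : K[X] := Algebra.intNorm K[X] B b with hq
  have hqn : algebraMap K[X] K⟮t⟯ q = Algebra.norm K⟮t⟯ (algebraMap B F b) :=
    Algebra.algebraMap_intNorm (K := K⟮t⟯) (L := F) b
  have hq0 : q ≠ 0 := by
    intro h0
    rw [h0, map_zero] at hqn
    exact hbF (Algebra.norm_eq_zero_iff.1 hqn.symm)
  have hqB : algebraMap K[X] B q ≠ 0 := by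
    rw [ne_eq, map_eq_zero_iff _ hinjRB]
    exact hq0
  have hqv : 0 < v.ord (algebraMap K[X] F q) := by
    rw [IsScalarTower.algebraMap_apply K[X] B F, hc, map_mul]
    have hc0 : c ≠ 0 := by
      rintro rfl
      rw [mul_zero] at hc
      exact hqB hc
    have hcF : algebraMap B F c ≠ 0 := by
      rw [ne_eq, map_eq_zero_iff _ (IsFractionRing.injective B F)]
      exact hc0
    rw [v.ord_mul hbF hcF]
    have := ord_nonneg_of_mem v (hcont v hv c)
    omega
  have hXq : Polynomial.X ∣ q := by
    rw [X_dvd_iff]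
    by_contra hq00
    have h1 : algebraMap K[X] F q = algebraMap K F (q.coeff 0) + t * algebraMap K[X] F (divX q) := by
      conv_lhs => rw [← divX_mul_X_add q]
      rw [map_add, map_mul, hX]
      have : algebraMap K[X] F (C (q.coeff 0)) = algebraMap K F (q.coeff 0) := by
        change aeval t (C (q.coeff 0)) = _
        simp
      rw [this]
      ring
    have h2 : v.ord (algebraMap K[X] F q) = 0 := by
      rw [h1]
      rcases eq_or_ne (algebraMap K[X] F (divX q)) 0 with h3 | h3
      · rw [h3, mul_zero, add_zero, ord_algebraMap]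
      · rw [ord_add_eq_of_lt v _ (mul_ne_zero ht0 h3), ord_algebraMap]
        · rw [ord_algebraMap, v.ord_mul ht0 h3]
          have h4 : algebraMap K[X] F (divX q) ∈ v.toValuationSubring := by
            rw [IsScalarTower.algebraMap_apply K[X] B F]
            exact hcont v hv _
          have := ord_nonneg_of_mem v h4
          omega
        · rwa [ne_eq, _root_.map_eq_zero]
    omega
  obtain ⟨r, hr⟩ := hXq
  -- the product formula for the norm
  obtain ⟨x0⟩ : Nonempty X := by
    rw [← not_isEmpty_iff]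
    intro hempty
    rw [Nat.card_of_isEmpty] at hcard
    exact (Module.finrank_pos (R := K⟮t⟯) (M := F)).ne hcard
  let E := AlgebraicClosure Ω
  let η : K⟮t⟯ →+* E := ((algebraMap Ω E).comp (φ x0)).comp (algebraMap K⟮t⟯ F)
  letI : Algebra K⟮t⟯ E := η.toAlgebra
  let Φ : X → (F →ₐ[K⟮t⟯] E) := fun x =>
    { (algebraMap Ω E).comp (φ x) with
      commutes' := by
        intro z
        change algebraMap Ω E (φ x (algebraMap K⟮t⟯ F z)) =
          algebraMap Ω E (φ x0 (algebraMap K⟮t⟯ F z))
        exact congrArg (algebraMap Ω E) (hφ x x0 _ z.2) }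
  have hΦ : ∀ x f, Φ x f = algebraMap Ω E (φ x f) := fun x f => rfl
  have hΦinj : Function.Injective Φ := by
    intro x y hxy
    apply hφinj
    apply RingHom.ext
    intro f
    have := congrArg (fun ψ : F →ₐ[K⟮t⟯] E => ψ f) hxy
    simp only [hΦ] at this
    exact (algebraMap Ω E).injective this
  have hΦbij : Function.Bijective Φ := by
    rw [Fintype.bijective_iff_injective_and_card]
    refine ⟨hΦinj, ?_⟩
    rw [AlgHom.card, ← hcard, Nat.card_eq_fintype_card]
  have hnorm := Algebra.norm_eq_prod_embeddings K⟮t⟯ E (algebraMap B F b)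
  rw [← (Equiv.ofBijective Φ hΦbij).prod_comp] at hnorm
  simp only [Equiv.ofBijective_apply, hΦ] at hnorm
  rw [← hqn, ← map_prod] at hnorm
  have hnorm2 : φ x0 (algebraMap K[X] F q) = ∏ x, φ x (algebraMap B F b) := by
    apply (algebraMap Ω E).injective
    rw [← hnorm]
    change _ = algebraMap Ω E (φ x0 (algebraMap K⟮t⟯ F (algebraMap K[X] K⟮t⟯ q)))
    rw [← IsScalarTower.algebraMap_apply]
  have hw1 : w 1 = 0 := by
    have := hwmul 1 1 one_ne_zero one_ne_zero
    rw [one_mul] at this
    omega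
  have hwprod : ∀ S : Finset X, (∏ x ∈ S, φ x (algebraMap B F b)) ≠ 0 ∧
      w (∏ x ∈ S, φ x (algebraMap B F b)) = 0 := by
    intro S
    induction S using Finset.induction_on with
    | empty => simp [hw1]
    | insert x S hx ih =>
      rw [Finset.prod_insert hx]
      have h1 : φ x (algebraMap B F b) ≠ 0 := by rwa [ne_eq, _root_.map_eq_zero]
      exact ⟨mul_ne_zero h1 ih.1, by rw [hwmul _ _ h1 ih.1, hbx, ih.2]; rfl⟩
  have hw0 : w (φ x0 (algebraMap K[X] F q)) = 0 := by
    rw [hnorm2]
    exact (hwprod Finset.univ).2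
  -- but it is positive
  have hqF : algebraMap K[X] F q ≠ 0 := by
    rw [ne_eq, map_eq_zero_iff _ hinjRF]
    exact hq0
  have hpos : 0 < (pl x0).ord (algebraMap K[X] F q) := by
    have hr0 : algebraMap K[X] F r ≠ 0 := by
      intro h0
      rw [hr, map_mul, h0, mul_zero] at hqF
      exact hqF rfl
    rw [hr, map_mul, hX, Place.ord_mul _ ht0 hr0]
    have h4 : algebraMap K[X] F r ∈ (pl x0).toValuationSubring := by
      rw [IsScalarTower.algebraMap_apply K[X] B F]
      exact hcont _ (hplpos x0) _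
    have h5 := ord_nonneg_of_mem _ h4
    have h6 := hplpos x0
    omega
  have := hm x0 _ hqF
  rw [hw0] at this
  have h7 : 0 < m x0 * (pl x0).ord (algebraMap K[X] F q) := mul_pos (hm0 x0) hpos
  omega

end Embeddings

end Fermat.Agent.Curve
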