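import Mathlib.GroupTheory.Perm.Cycle.Basic
import Mathlib.Dynamics.PeriodicPts.Lemmas
import Fermat.Agent.Curve.Embed

/-!
# Places over a point and orbits of embeddings
-/

set_option autoImplicit false
set_option linter.style.haveILetI false
set_option linter.unusedSectionVars false
set_option linter.unusedVariables false

namespace Fermat.Agent.Curve

open AlgebraicCurve IntermediateField

/-- Counting lemma: a surjection `ψ : Q → S` such that `∑ e (ψ q) ≤ ∑ e s` with `e > 0` is
a bijection. -/
theorem card_eq_of_sum_le {Q S : Type*} [Fintype Q] [Fintype S] (ψ : Q → S)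
    (hψ : Function.Surjective ψ) (e : S → ℤ) (he : ∀ s, 0 < e s)
    (hsum : ∑ q, e (ψ q) ≤ ∑ s, e s) : Fintype.card Q = Fintype.card S := by
  classical
  have h1 : ∑ q, e (ψ q) = ∑ s, ((Finset.univ.filter fun q => ψ q = s).card : ℤ) * e s := by
    rw [← Finset.sum_fiberwise (s := Finset.univ) (g := ψ)]
    apply Finset.sum_congr rfl
    intro s _
    rw [Finset.sum_congr rfl (g := fun _ => e s)]
    · simp
    · intro q hq
      rw [Finset.mem_filter] at hq
      rw [hq.2]
  have hpos : ∀ s, 1 ≤ (Finset.univ.filter fun q => ψ q = s).card := by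
    intro s
    obtain ⟨q, hq⟩ := hψ s
    exact Finset.card_pos.2 ⟨q, by simp [hq]⟩
  have h2 : ∀ s ∈ Finset.univ, (0 : ℤ) ≤
      ((Finset.univ.filter fun q => ψ q = s).card : ℤ) * e s - e s := by
    intro s _
    have := hpos s
    have h3 := he s
    have h4 : (1 : ℤ) ≤ ((Finset.univ.filter fun q => ψ q = s).card : ℤ) := by exact_mod_cast this
    nlinarith
  have h3 : ∑ s, (((Finset.univ.filter fun q => ψ q = s).card : ℤ) * e s - e s) = 0 := by
    apply le_antisymm
    · rw [Finset.sum_sub_distrib, ← h1]
      linarith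
    · exact Finset.sum_nonneg h2
  have h4 := (Finset.sum_eq_zero_iff_of_nonneg h2).1 h3
  have h5 : ∀ s, (Finset.univ.filter fun q => ψ q = s).card = 1 := by
    intro s
    have := h4 s (Finset.mem_univ s)
    have h6 := he s
    have h7 : (((Finset.univ.filter fun q => ψ q = s).card : ℤ) - 1) * e s = 0 := by
      linear_combination this
    rcases mul_eq_zero.1 h7 with h | h
    · omega
    · omega
  have h6 := Finset.card_eq_sum_card_fiberwise (f := ψ) (s := Finset.univ) (t := Finset.univ)
    (by intro x _; simp)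
  rw [← Finset.card_univ, h6, Finset.sum_congr rfl fun s _ => h5 s]
  simp

variable {K F Ω : Type*} [Field K] [IsAlgClosed K] [CharZero K] [Field F] [Algebra K F] [Field Ω]

/-- **Theorem B**: the places over `t = 0` correspond to the orbits of `s` on the embeddings. -/
theorem card_orbits_eq (t : F) (ht : Transcendental K t) [FiniteDimensional K⟮t⟯ F]
    {X : Type*} [Finite X] (φ : X → F →+* Ω) (hφinj : Function.Injective φ)
    (hφ : ∀ x y, ∀ z ∈ K⟮t⟯, φ x z = φ y z)
    (hcard : Nat.card X = Module.finrank K⟮t⟯ F)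
    (w : Ω → ℤ) (hwmul : ∀ f g : Ω, f ≠ 0 → g ≠ 0 → w (f * g) = w f + w g)
    (hwadd : ∀ f g : Ω, f ≠ 0 → g ≠ 0 → f + g ≠ 0 → min (w f) (w g) ≤ w (f + g))
    (hwK : ∀ x, ∀ a : K, a ≠ 0 → w (φ x (algebraMap K F a)) = 0)
    (e0 : ℤ) (he0 : 0 < e0) (hwt : ∀ x, w (φ x t) = e0)
    (σ : Equiv.Perm X) (s : Ω →+* Ω) (hs : ∀ x, s.comp (φ x) = φ (σ x))
    (hws : ∀ f : Ω, f ≠ 0 → w (s f) = w f)
    (hdiv : ∀ (m : ℕ) (f : Ω), f ≠ 0 → s^[m] f = f → e0 ∣ m * w f) :
    Nat.card (Quotient (Equiv.Perm.SameCycle.setoid σ)) =
        Set.ncard {v : Place K F | 0 < v.ord t} ∧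
      ∀ v : Place K F, 0 < v.ord t → v.ord t ∣ e0 := by
  classical
  haveI := Fintype.ofFinite X
  obtain ⟨x0⟩ : Nonempty X := by
    rw [← not_isEmpty_iff]
    intro hempty
    rw [Nat.card_of_isEmpty] at hcard
    exact (Module.finrank_pos (R := K⟮t⟯) (M := F)).ne hcard
  have ht0 : t ≠ 0 := by
    rintro rfl
    exact ht isAlgebraic_zero
  have hpl : ∀ x, ∃ u : Place K F, ∃ m : ℤ, 0 < m ∧ ∀ f : F, f ≠ 0 → w (φ x f) = m * u.ord f :=
    fun x => exists_place_of_embedding (φ x) w hwmul hwadd (hwK x)
      ⟨t, ht0, by rw [hwt x]; exact he0.ne'⟩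
  choose pl m hm0 hm using hpl
  have hplpos : ∀ x, 0 < (pl x).ord t := by
    intro x
    have h1 := hm x t ht0
    rw [hwt x] at h1
    have h3 := hm0 x
    by_contra hcon
    push Not at hcon
    nlinarith
  have hplσ : ∀ x, pl (σ x) = pl x := by
    intro x
    apply place_eq_of_le
    intro f hf
    rcases eq_or_ne f 0 with rfl | hf0
    · exact zero_mem _
    apply mem_of_ord_nonneg
    have h1 := ord_nonneg_of_mem _ hf
    have h2 : w (φ (σ x) f) = w (φ x f) := by
      rw [← hs x]
      exact hws _ (by rwa [ne_eq, map_eq_zero])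
    rw [hm _ f hf0, hm _ f hf0] at h2
    have h3 := hm0 x
    have h4 := hm0 (σ x)
    by_contra hcon
    push Not at hcon
    have h5 : m x * (pl x).ord f < 0 := by nlinarith
    have h6 : 0 ≤ m (σ x) * (pl (σ x)).ord f := by positivity
    omega
  have hplpow : ∀ (n : ℕ) x, pl ((σ ^ n) x) = pl x := by
    intro n
    induction n with
    | zero => intro x; rfl
    | succ n ih => intro x; rw [pow_succ', Equiv.Perm.mul_apply, hplσ, ih]
  have hplcyc : ∀ x y, σ.SameCycle x y → pl x = pl y := by
    rintro x y ⟨i, hi⟩
    obtain ⟨n, rfl | rfl⟩ := i.eq_nat_or_neg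
    · rw [← hi, zpow_natCast, hplpow]
    · rw [zpow_neg, zpow_natCast, Equiv.Perm.inv_eq_iff_eq] at hi
      rw [hi, hplpow]
  obtain ⟨hfin, hsum⟩ := zeros_sum t ht
  haveI : Fintype {v : Place K F | 0 < v.ord t} := hfin.fintype
  let Q := Quotient (Equiv.Perm.SameCycle.setoid σ)
  haveI : Fintype Q := Fintype.ofFinite Q
  let ψ : Q → {v : Place K F | 0 < v.ord t} :=
    Quotient.lift (fun x => ⟨pl x, hplpos x⟩) (by
      intro x y hxy
      apply Subtype.ext
      exact hplcyc x y hxy)
  have hψ : Function.Surjective ψ := by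
    rintro ⟨v, hv⟩
    obtain ⟨x, m', hm'0, hm'⟩ := exists_embedding_of_place t ht φ hφinj hφ hcard w hwmul hwadd hwK
      (fun x => by rw [hwt x]; exact he0) v hv
    refine ⟨Quotient.mk _ x, ?_⟩
    apply Subtype.ext
    change pl x = v
    apply place_eq_of_le
    intro f hf
    rcases eq_or_ne f 0 with rfl | hf0
    · exact zero_mem _
    apply mem_of_ord_nonneg
    have h1 := ord_nonneg_of_mem _ hf
    have h2 := hm x f hf0
    rw [hm' f hf0] at h2
    have h3 := hm0 x
    by_contra hcon
    push Not at hcon
    have h5 : m' * v.ord f < 0 := by nlinarith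
    have h6 : 0 ≤ m x * (pl x).ord f := by positivity
    omega
  -- the size of an orbit is at least the ramification index
  have hfib : ∀ q : Q, ((ψ q : Place K F).ord t : ℤ) ≤
      ((Finset.univ.filter fun x : X => (Quotient.mk _ x : Q) = q).card : ℤ) := by
    intro q
    induction q using Quotient.inductionOn with
    | h x =>
      change (pl x).ord t ≤ _
      set M := Function.minimalPeriod σ x with hM
      have hMpos : 0 < M := Function.minimalPeriod_pos_of_mem_periodicPts
        (σ.injective.mem_periodicPts x)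
      have hMx : σ^[M] x = x := Function.iterate_minimalPeriod
      have hle : M ≤ (Finset.univ.filter fun y : X => (Quotient.mk _ y : Q) =
          Quotient.mk _ x).card := by
        have hinj := Function.iterate_injOn_Iio_minimalPeriod (f := σ) (x := x)
        have := Finset.card_le_card_of_injOn (s := Finset.range M) (fun i => σ^[i] x)
          (t := Finset.univ.filter fun y : X => (Quotient.mk _ y : Q) = Quotient.mk _ x)
          (by
            intro i hi
            simp only [Finset.coe_filter, Finset.mem_univ, true_and, Set.mem_ofPred_eq]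
            apply Quotient.sound
            apply Equiv.Perm.SameCycle.symm
            refine ⟨i, ?_⟩
            rw [zpow_natCast, ← Equiv.Perm.iterate_eq_pow])
          (by
            intro i hi j hj hij
            apply hinj _ _ hij
            · simpa [← hM] using hi
            · simpa [← hM] using hj)
        simpa using this
      have hsM : ∀ (n : ℕ) (y : X), s^[n] ∘ (φ y) = φ (σ^[n] y) := by
        intro n
        induction n with
        | zero => intro y; rfl
        | succ n ih =>
          intro y
          rw [Function.iterate_succ, Function.iterate_succ]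
          funext f
          simp only [Function.comp_apply]
          have h1 := ih (σ y)
          have h2 : s (φ y f) = φ (σ y) f := by rw [← hs y]; rfl
          rw [h2]
          exact congrFun h1 f
      obtain ⟨f, hf0, hf1⟩ := exists_ord_eq (pl x) 1
      have hdf := hdiv M (φ x f) (by rwa [ne_eq, map_eq_zero]) (by
        have := congrFun (hsM M x) f
        rw [hMx] at this
        exact this)
      rw [hm x f hf0, hf1, mul_one] at hdf
      have he : e0 = m x * (pl x).ord t := by rw [← hwt x, hm x t ht0]
      rw [he, mul_comm (M : ℤ)] at hdf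
      have h8 : (pl x).ord t ∣ (M : ℤ) := (mul_dvd_mul_iff_left (hm0 x).ne').1 hdf
      have h9 := Int.le_of_dvd (by exact_mod_cast hMpos) h8
      exact h9.trans (by exact_mod_cast hle)
  have hsum2 : ∑ q : Q, (((ψ q : Place K F).ord t : ℤ)) ≤
      ∑ v : {v : Place K F | 0 < v.ord t}, (v : Place K F).ord t := by
    have h1 : ∑ q : Q, ((Finset.univ.filter fun x : X => (Quotient.mk _ x : Q) = q).card : ℤ) =
        Fintype.card X := by
      have := Finset.card_eq_sum_card_fiberwise (f := fun x : X => (Quotient.mk _ x : Q))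
        (s := Finset.univ) (t := Finset.univ) (by intro x _; simp)
      rw [← Finset.card_univ, this]
      push_cast
      rfl
    have h2 : ∑ v : {v : Place K F | 0 < v.ord t}, (v : Place K F).ord t =
        ∑ v ∈ hfin.toFinset, v.ord t :=
      (Finset.sum_subtype hfin.toFinset (fun v => by rw [Set.Finite.mem_toFinset])
        (fun v => v.ord t)).symm
    rw [h2, hsum, ← hcard, Nat.card_eq_fintype_card, ← h1]
    exact Finset.sum_le_sum fun q _ => hfib q
  refine ⟨?_, ?_⟩
  · have := card_eq_of_sum_le ψ hψ (fun v => (v : Place K F).ord t) (fun v => v.2) hsum2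
    rw [Nat.card_eq_fintype_card, this, ← Nat.card_eq_fintype_card]
    rfl
  · intro v hv
    obtain ⟨x, m', hm'0, hm'⟩ := exists_embedding_of_place t ht φ hφinj hφ hcard w hwmul hwadd hwK
      (fun x => by rw [hwt x]; exact he0) v hv
    have := hm' t ht0
    rw [hwt x] at this
    exact ⟨m', by rw [this]; ring⟩

end Fermat.Agent.Curve
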